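import Mathlib

/-!
# An element of the special linear group over a prime field from the nonsplit torus

For `P ∣ q + 1` there is an element of order `P` which is conjugate to its inverse.
-/

set_option autoImplicit false
set_option linter.style.haveILetI false

noncomputable section

open scoped MatrixGroups
open Matrix

namespace FLTAgent.Entry.Old

variable {q : ℕ} [Fact q.Prime]

theorem exists_prime_field_of_pow_eq {K : Type*} [Field K] [CharP K q] [Algebra (ZMod q) K]
    {x : K} (h : x ^ q = x) : ∃ a : ZMod q, algebraMap (ZMod q) K a = x := by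
  have hm := (mem_bot_iff_intCast q K).1 ((Subfield.mem_bot_iff_pow_eq_self K q).2 h)
  obtain ⟨n, hn⟩ := hm
  exact ⟨(n : ZMod q), by rw [map_intCast, hn]⟩

theorem exists_torus_elements {P : ℕ} (hP : P ∣ q + 1) (hP2 : 2 < P) :
    ∃ t w : SL(2, ZMod q), (∀ n : ℕ, t ^ n = 1 ↔ P ∣ n) ∧ w * t = t⁻¹ * w := by
  classical
  have hq : q.Prime := Fact.out
  let K := GaloisField q 2
  haveI : Fintype K := Fintype.ofFinite K
  haveI : Algebra.IsAlgebraic (ZMod q) K := Algebra.IsAlgebraic.of_finite _ _
  have hcard : Nat.card K = q ^ 2 := GaloisField.card q 2 two_ne_zero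
  obtain ⟨g, hg⟩ := IsCyclic.exists_ofOrder_eq_natCard (α := Kˣ)
  rw [Nat.card_units, hcard] at hg
  have hPd : P ∣ q ^ 2 - 1 := by
    rw [show q ^ 2 - 1 = q ^ 2 - 1 ^ 2 by simp, Nat.sq_sub_sq]; exact hP.mul_right _
  set u' : Kˣ := g ^ ((q ^ 2 - 1) / P) with hu'
  have hpos : 0 < q ^ 2 - 1 := by
    have := hq.two_le; have : 4 ≤ q ^ 2 := by nlinarith
    omega
  have hdiv : (q ^ 2 - 1) / P ∣ q ^ 2 - 1 := Nat.div_dvd_of_dvd hPd
  have hord : orderOf u' = P := by
    rw [hu', orderOf_pow_of_dvd (Nat.div_pos (Nat.le_of_dvd hpos hPd) (by omega)).ne'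
      (by rw [hg]; exact hdiv), hg, Nat.div_div_self hPd hpos.ne']
  set u : K := (u' : K) with hu
  have hordu : ∀ n : ℕ, u ^ n = 1 ↔ P ∣ n := by
    intro n
    rw [← hord, orderOf_dvd_iff_pow_eq_one, hu, ← Units.val_pow_eq_pow_val, Units.val_eq_one]
  have hu0 : u ≠ 0 := u'.ne_zero
  have huq : u ^ (q + 1) = 1 := (hordu _).2 hP
  have hne : u ^ q ≠ u := by
    intro h
    have h1 : u ^ (q - 1) = 1 := by
      have hqq : u ^ (q - 1) * u = 1 * u := by
        rw [← pow_succ, Nat.sub_add_cancel hq.one_le, h, one_mul]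
      exact mul_right_cancel₀ hu0 hqq
    have h2 : P ∣ 2 := by
      have := Nat.dvd_sub hP ((hordu _).1 h1)
      rwa [show q + 1 - (q - 1) = 2 by have := hq.one_le; omega] at this
    have := Nat.le_of_dvd (by norm_num) h2
    omega
  have hfr2 : ∀ x : K, (x ^ q) ^ q = x := by
    intro x
    rw [← pow_mul, ← sq, ← hcard, Nat.card_eq_fintype_card, FiniteField.pow_card]
  have hsub : ∀ a b : K, (a - b) ^ q = a ^ q - b ^ q := fun a b => sub_pow_char a b
  have hadd : ∀ a b : K, (a + b) ^ q = a ^ q + b ^ q := fun a b => add_pow_char a b q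
  obtain ⟨s, hs⟩ := exists_prime_field_of_pow_eq (q := q) (x := u + u ^ q)
    (by rw [hadd, hfr2, add_comm])
  -- an element of norm `-1`
  obtain ⟨lam, hlam⟩ := FiniteField.norm_surjective (ZMod q) K (-1)
  have hlam' : lam * lam ^ q = -1 := by
    have hn := congrArg (algebraMap (ZMod q) K) hlam
    rw [Algebra.norm_eq_prod_automorphisms] at hn
    have h2 := FiniteField.algebraMap_norm_eq_pow (K := ZMod q) (x := lam)
    rw [hlam, map_neg, map_one] at h2
    rw [h2, ← pow_succ', hcard]
    congr 1
    simp only [Nat.card_zmod]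
    have hq1 : 0 < q - 1 := by have := hq.two_le; omega
    rw [show q ^ 2 - 1 = (q + 1) * (q - 1) by rw [← Nat.sq_sub_sq, one_pow],
      Nat.mul_div_cancel _ hq1]
  have hd0 : u - u ^ q ≠ 0 := sub_ne_zero.2 (Ne.symm hne)
  obtain ⟨y', hy'⟩ := exists_prime_field_of_pow_eq (q := q) (x := (lam - lam ^ q) / (u - u ^ q))
    (by rw [div_pow, hsub, hsub, hfr2, hfr2, ← neg_sub lam (lam ^ q), ← neg_sub u (u ^ q),
      neg_div_neg_eq])
  obtain ⟨x, hx⟩ := exists_prime_field_of_pow_eq (q := q)
    (x := lam - u * algebraMap (ZMod q) K y')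
    (by
      have hY : algebraMap (ZMod q) K y' * (u - u ^ q) = lam - lam ^ q := by
        rw [hy', div_mul_cancel₀ _ hd0]
      rw [hsub, mul_pow, ← map_pow, ZMod.pow_card]
      linear_combination hY)
  have hy'' : ∀ a : ZMod q, algebraMap (ZMod q) K a ^ q = algebraMap (ZMod q) K a := fun a => by
    rw [← map_pow, ZMod.pow_card]
  have hdetw : x ^ 2 + y' ^ 2 + s * x * y' = -1 := by
    apply (algebraMap (ZMod q) K).injective
    simp only [map_add, map_mul, map_pow, map_neg, map_one, hs]
    have hl : lam = algebraMap (ZMod q) K x + u * algebraMap (ZMod q) K y' := by rw [hx]; ring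
    rw [← hlam', hl, hadd, mul_pow, hy'', hy'']
    have : u * u ^ q = 1 := by rw [← pow_succ']; exact huq
    linear_combination (-(algebraMap (ZMod q) K y') ^ 2) * this
  let t : SL(2, ZMod q) := ⟨!![0, -1; 1, s], by rw [Matrix.det_fin_two_of]; ring⟩
  let w : SL(2, ZMod q) := ⟨!![x, -y'; -y' - x * s, -x], by
    rw [Matrix.det_fin_two_of]; linear_combination -hdetw⟩
  refine ⟨t, w, ?_, ?_⟩
  · -- the row `(1, u)` is an eigenvector
    let φ : ZMod q →+* K := algebraMap (ZMod q) K
    have hev : ∀ (n : ℕ) (j : Fin 2),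
        φ ((t ^ n : SL(2, ZMod q)) 0 j) + u * φ ((t ^ n : SL(2, ZMod q)) 1 j) =
          u ^ n * (if j = 0 then 1 else u) := by
      intro n
      induction n with
      | zero => intro j; fin_cases j <;> simp [φ]
      | succ n ih =>
        have hu2 : u ^ 2 = φ s * u - 1 := by
          show u ^ 2 = algebraMap (ZMod q) K s * u - 1
          rw [hs, ← huq]; ring
        intro j
        have e0 := ih 0
        have e1 := ih 1
        simp only [↓reduceIte, one_ne_zero, mul_one] at e0 e1
        have hm : ((t ^ (n + 1) : SL(2, ZMod q)) : Matrix (Fin 2) (Fin 2) (ZMod q)) =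
            ((t ^ n : SL(2, ZMod q)) : Matrix (Fin 2) (Fin 2) (ZMod q)) * !![0, -1; 1, s] := by
          rw [pow_succ]; rfl
        fin_cases j
        · simp [hm, Matrix.mul_apply, Fin.sum_univ_two]
          rw [pow_succ]
          linear_combination e1
        · simp [hm, Matrix.mul_apply, Fin.sum_univ_two]
          rw [pow_succ]
          linear_combination -e0 + φ s * e1 - u ^ n * hu2
    intro n
    rw [← hordu]
    constructor
    · intro h
      have := hev n 0
      simpa [h, φ] using this.symm
    · intro h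
      have key : ∀ a b : ZMod q, φ a + u * φ b = 0 → a = 0 ∧ b = 0 := by
        intro a b hab
        by_cases hb : b = 0
        · subst hb
          simp only [map_zero, mul_zero, add_zero] at hab
          exact ⟨φ.injective (by rw [hab, map_zero]), rfl⟩
        · exfalso
          apply hne
          have hb' : φ b ≠ 0 := (map_ne_zero φ).2 hb
          have : u = -φ a / φ b := by rw [eq_div_iff hb']; linear_combination hab
          rw [this, ← map_neg, ← map_div₀]
          exact hy'' _
      have e0 := hev n 0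
      have e1 := hev n 1
      simp only [↓reduceIte, one_ne_zero, h, one_mul] at e0 e1
      have f0 := key ((t ^ n : SL(2, ZMod q)) 0 0 - 1) ((t ^ n : SL(2, ZMod q)) 1 0)
        (by rw [map_sub, map_one]; linear_combination e0)
      have f1 := key ((t ^ n : SL(2, ZMod q)) 0 1) ((t ^ n : SL(2, ZMod q)) 1 1 - 1)
        (by rw [map_sub, map_one]; linear_combination e1)
      ext i j
      fin_cases i <;> fin_cases j
      · simpa using sub_eq_zero.1 f0.1
      · simpa using f1.1
      · simpa using f0.2
      · simpa using sub_eq_zero.1 f1.2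
  · ext i j
    fin_cases i <;> fin_cases j <;>
      (simp only [Matrix.SpecialLinearGroup.coe_mul, Matrix.SpecialLinearGroup.coe_inv]
       simp [t, w, Matrix.mul_apply, Fin.sum_univ_two, Matrix.adjugate_fin_two]) <;> ring

end FLTAgent.Entry.Old
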