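import Mathlib

/-!
# Extending an invariant homomorphism from the kernel of a map onto a finite group

If the Sylow subgroup is generated by an element which is conjugate to its inverse, an invariant
homomorphism on the kernel killed by `p` extends to the whole group.
-/

set_option autoImplicit false
set_option linter.style.haveILetI false

noncomputable section

namespace FLTAgent.Entry.Old

variable {G Q A : Type*} [Group G] [Group Q] [AddCommGroup A]

theorem inv_lift_pow (r : G →* Q) (θ : G → A) (T n : G)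
    (hadd : ∀ a b : G, a ∈ r.ker → b ∈ r.ker → θ (a * b) = θ a + θ b)
    (hinv : ∀ g a : G, a ∈ r.ker → θ (g * a * g⁻¹) = θ a) (hn : n ∈ r.ker) (k : ℕ) :
    T ^ k * (T⁻¹ * n) ^ k ∈ r.ker ∧ θ (T ^ k * (T⁻¹ * n) ^ k) = k • θ n := by
  induction k with
  | zero =>
    refine ⟨by simp, ?_⟩
    have h1 := hadd 1 1 (one_mem _) (one_mem _)
    simp only [mul_one, left_eq_add] at h1
    simp [h1]
  | succ k ih =>
    have hm : T * (T ^ k * (T⁻¹ * n) ^ k) * T⁻¹ ∈ r.ker := r.normal_ker.conj_mem _ ih.1 T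
    have heq : T ^ (k + 1) * (T⁻¹ * n) ^ (k + 1) = T * (T ^ k * (T⁻¹ * n) ^ k) * T⁻¹ * n := by
      rw [pow_succ' T, pow_succ (T⁻¹ * n)]; group
    rw [heq]
    refine ⟨mul_mem hm hn, ?_⟩
    rw [hadd _ _ hm hn, hinv _ _ ih.1, ih.2, succ_nsmul]

/-- **Extension of an invariant homomorphism.** -/
theorem exists_hom_of_ker [Finite Q] (r : G →* Q) (hr : Function.Surjective r) (θ : G → A)
    (hadd : ∀ a b : G, a ∈ r.ker → b ∈ r.ker → θ (a * b) = θ a + θ b)
    (hinv : ∀ g a : G, a ∈ r.ker → θ (g * a * g⁻¹) = θ a)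
    {p P : ℕ} (hp : p.Prime) (hp2 : p ≠ 2) (hpP : p ∣ P)
    (hpA : ∀ a ∈ r.ker, p • θ a = 0) (t w : Q) (ht : ∀ n : ℕ, t ^ n = 1 ↔ P ∣ n)
    (hw : w * t = t⁻¹ * w) (hidx : ¬ p ∣ (Subgroup.zpowers t).index) :
    ∃ ψ : Additive G →+ A, p • ψ = 0 ∧ ∀ a ∈ r.ker, ψ (Additive.ofMul a) = θ a := by
  classical
  haveI : Fact p.Prime := ⟨hp⟩
  obtain ⟨T, hT⟩ := hr t
  obtain ⟨W, hW⟩ := hr w
  have hTP : T ^ P ∈ r.ker := by rw [MonoidHom.mem_ker, map_pow, hT, ht]
  have hθ1 : θ 1 = 0 := by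
    have h1 := hadd 1 1 (one_mem _) (one_mem _)
    simpa using h1
  -- the value at the power of the lift
  have hTP0 : θ (T ^ P) = 0 := by
    set n : G := T * (W * T * W⁻¹) with hn0
    have hn : n ∈ r.ker := by
      rw [MonoidHom.mem_ker, hn0]
      simp only [map_mul, map_inv, hT, hW]
      rw [hw]; group
    obtain ⟨hk1, hk2⟩ := inv_lift_pow r θ T n hadd hinv hn P
    have hconj : (T⁻¹ * n) ^ P = W * T ^ P * W⁻¹ := by
      rw [show T⁻¹ * n = W * T * W⁻¹ by rw [hn0]; group, conj_pow]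
    rw [hconj] at hk1 hk2
    rw [hadd _ _ hTP (r.normal_ker.conj_mem _ hTP W), hinv _ _ hTP] at hk2
    obtain ⟨c, hPc⟩ := hpP
    have hPn : P • θ n = 0 := by rw [hPc, mul_comm, mul_smul, hpA n hn, smul_zero]
    rw [hPn, ← two_nsmul] at hk2
    obtain ⟨d, hd⟩ : ∃ d : ℕ, d * 2 % p = 1 := by
      obtain ⟨k, hk⟩ := hp.odd_of_ne_two hp2
      refine ⟨k + 1, ?_⟩
      rw [show (k + 1) * 2 = 1 + p by omega, Nat.add_mod_right, Nat.mod_eq_of_lt hp.one_lt]
    have := Nat.div_add_mod (d * 2) p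
    rw [hd] at this
    have h2 := congrArg (fun x : A => d • x) hk2
    simp only [smul_zero, ← mul_smul] at h2
    rw [← this, add_smul, one_smul, mul_comm p (d * 2 / p), mul_smul, hpA _ hTP, smul_zero,
      zero_add] at h2
    exact h2
  have hTk : ∀ k : ℕ, (T ^ P) ^ k ∈ r.ker ∧ θ ((T ^ P) ^ k) = 0 := by
    intro k
    induction k with
    | zero => exact ⟨by simp, by rw [pow_zero, hθ1]⟩
    | succ k ih =>
      rw [pow_succ]
      exact ⟨mul_mem ih.1 hTP, by rw [hadd _ _ ih.1 hTP, ih.2, hTP0, add_zero]⟩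
  -- the extension to the preimage of the cyclic group
  let H : Subgroup G := (Subgroup.zpowers t).comap r
  have hrep : ∀ h : H, ∃ i : ℕ, (T ^ i)⁻¹ * (h : G) ∈ r.ker := by
    intro h
    have hfin : IsOfFinOrder t := isOfFinOrder_of_finite t
    obtain ⟨i, hi⟩ : ∃ i : ℕ, t ^ i = r (h : G) :=
      Iff.mp (Submonoid.mem_powers_iff _ _) (hfin.mem_powers_iff_mem_zpowers.2 h.2)
    exact ⟨i, by rw [MonoidHom.mem_ker, map_mul, map_inv, map_pow, hT, hi, inv_mul_cancel]⟩
  let f : H → A := fun h => θ ((T ^ (hrep h).choose)⁻¹ * (h : G))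
  have hwd0 : ∀ (g : G) (i j : ℕ), j ≤ i → (T ^ i)⁻¹ * g ∈ r.ker → (T ^ j)⁻¹ * g ∈ r.ker →
      θ ((T ^ j)⁻¹ * g) = θ ((T ^ i)⁻¹ * g) := by
    intro g i j hji hi hj
    obtain ⟨d, rfl⟩ := Nat.exists_eq_add_of_le hji
    have hd : T ^ d ∈ r.ker := by
      have := mul_mem hj (inv_mem hi)
      rwa [show (T ^ j)⁻¹ * g * ((T ^ (j + d))⁻¹ * g)⁻¹ = T ^ d by rw [pow_add]; group] at this
    have hd' : P ∣ d := by
      rw [← ht, ← hT, ← map_pow]; exact hd
    obtain ⟨k, rfl⟩ := hd'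
    rw [show (T ^ j)⁻¹ * g = T ^ (P * k) * ((T ^ (j + P * k))⁻¹ * g) by rw [pow_add]; group,
      hadd _ _ hd hi, pow_mul, (hTk k).2, zero_add]
  have hwd : ∀ (h : H) (i : ℕ), (T ^ i)⁻¹ * (h : G) ∈ r.ker → f h = θ ((T ^ i)⁻¹ * (h : G)) := by
    intro h i hi
    rcases le_total (hrep h).choose i with hle | hle
    · exact hwd0 _ _ _ hle hi (hrep h).choose_spec
    · exact (hwd0 _ _ _ hle (hrep h).choose_spec hi).symm
  have hfadd : ∀ a b : H, f (a * b) = f a + f b := by
    intro a b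
    obtain ⟨i, hi⟩ := hrep a
    obtain ⟨j, hj⟩ := hrep b
    have he : (T ^ (i + j))⁻¹ * ((a * b : H) : G) =
        (T ^ j)⁻¹ * ((T ^ i)⁻¹ * (a : G)) * ((T ^ j)⁻¹)⁻¹ * ((T ^ j)⁻¹ * (b : G)) := by
      rw [pow_add, Subgroup.coe_mul]; group
    have hc := r.normal_ker.conj_mem _ hi (T ^ j)⁻¹
    rw [hwd (a * b) (i + j) (he ▸ mul_mem hc hj), hwd a i hi, hwd b j hj, he,
      hadd _ _ hc hj, hinv _ _ hi]
  have hfker : ∀ h : H, (h : G) ∈ r.ker → f h = θ (h : G) := fun h hh => by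
    rw [hwd h 0 (by simpa using hh)]; simp
  have hfp : ∀ h : H, p • f h = 0 := fun h => hpA _ (hrep h).choose_spec
  let φ : H →* Multiplicative A :=
    { toFun := fun h => Multiplicative.ofAdd (f h)
      map_one' := by
        show Multiplicative.ofAdd (f 1) = 1
        rw [hfker 1 (by simp), OneMemClass.coe_one, hθ1, ofAdd_zero]
      map_mul' := fun a b => by rw [hfadd]; rfl }
  have hindex : H.index = (Subgroup.zpowers t).index :=
    Subgroup.index_comap_of_surjective _ hr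
  haveI : H.FiniteIndex := ⟨by rw [hindex]; exact Subgroup.index_ne_zero_of_finite⟩
  -- the transfer
  let tr : Additive G →+ A := MonoidHom.toAdditiveLeft (MonoidHom.transfer φ)
  have htrp : p • tr = 0 := by
    refine AddMonoidHom.ext fun g => ?_
    show p • Multiplicative.toAdd (MonoidHom.transfer φ (Additive.toMul g)) = 0
    rw [MonoidHom.transfer_def φ default, Subgroup.leftTransversals.diff]
    simp only [toAdd_prod, Finset.smul_sum]
    exact Finset.sum_eq_zero fun x _ => hfp _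
  have htrker : ∀ a ∈ r.ker, tr (Additive.ofMul a) = H.index • θ a := by
    intro a ha
    show Multiplicative.toAdd (MonoidHom.transfer φ a) = _
    rw [MonoidHom.transfer_def φ default, Subgroup.leftTransversals.diff]
    simp only [toAdd_prod]
    letI := H.fintypeQuotientOfFiniteIndex
    have hH : a ∈ H := by
      show r a ∈ Subgroup.zpowers t
      rw [show r a = 1 from ha]
      exact one_mem _
    rw [Finset.sum_congr rfl (g := fun _ => θ a), Finset.sum_const, Finset.card_univ,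
      ← Nat.card_eq_fintype_card]
    · rfl
    intro x _
    have hfix : a⁻¹ • x = x := by
      induction x using Quotient.inductionOn' with
      | h g =>
        refine QuotientGroup.eq.2 ?_
        show r ((a⁻¹ • g)⁻¹ * g) ∈ Subgroup.zpowers t
        simp [show r a = 1 from ha]
    simp only [Subgroup.smul_apply_eq_smul_apply_inv_smul, hfix, smul_eq_mul]
    show f _ = θ a
    rw [hfker _ ?_]
    · simp only
      rw [← mul_assoc]
      have := hinv (((default : H.LeftTransversal).2.leftQuotientEquiv x : G))⁻¹ a ha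
      simpa using this
    · simp [show r a = 1 from ha]
  obtain ⟨c, hc⟩ : ∃ c : ℕ, c * H.index % p = 1 := by
    have hcop : H.index.Coprime p := ((Nat.Prime.coprime_iff_not_dvd hp).2 (hindex ▸ hidx)).symm
    obtain ⟨c, hc⟩ := Nat.exists_mul_mod_eq_one_of_coprime hcop hp.one_lt
    exact ⟨c, by rw [mul_comm]; exact hc.2⟩
  refine ⟨c • tr, by rw [smul_comm, htrp, smul_zero], fun a ha => ?_⟩
  have := Nat.div_add_mod (c * H.index) p
  rw [hc] at this
  rw [AddMonoidHom.smul_apply, htrker a ha, ← mul_smul, ← this, add_smul, one_smul,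
    mul_comm p, mul_smul, hpA a ha, smul_zero, zero_add]

end FLTAgent.Entry.Old
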