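import Fermat.Agent.TorsionHom.Degeneracy
import Fermat.Agent.Entry.Old.Finite
import Fermat.Agent.Entry.Old.Transfer

/-!
# Extending a homomorphism compatible with the two embeddings of `Γ₀(Mq)`

A homomorphism killed by `p` on `Γ₀(Mq)` which agrees with another one twisted by `τ ↦ q τ`
on the common part extends to `Γ₀(M)`, for `q ≡ -1` modulo `p`.
-/

set_option autoImplicit false
set_option linter.style.haveILetI false
set_option linter.unusedSectionVars false

noncomputable section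

open CongruenceSubgroup
open scoped MatrixGroups

namespace FLTAgent.Entry.Old

open FLTAgent.PeriodHecke (mat mat_mul mat_one gamma0Mk mat_gamma0Mk Hpar)
open FLTAgent.TorsionHom (diagMat)

local notation "M2" => Matrix (Fin 2) (Fin 2) ℤ

variable (q M : ℕ)

/-- Reduction modulo `q`. -/
def red : Gamma0 M →* SL(2, ZMod q) :=
  (Matrix.SpecialLinearGroup.map (Int.castRingHom (ZMod q))).comp (Gamma0 M).subtype

theorem red_apply (g : Gamma0 M) (i j : Fin 2) : red q M g i j = (mat g i j : ZMod q) := rfl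

variable {q M}

theorem dvd_mul_level {N : ℕ} (g : Gamma0 N) : (N : ℤ) ∣ mat g 1 0 :=
  PeriodHecke.dvd_lower_left N g

theorem det_eq {N : ℕ} (g : Gamma0 N) : mat g 0 0 * mat g 1 1 - mat g 0 1 * mat g 1 0 = 1 := by
  rw [← Matrix.det_fin_two]; exact PeriodHecke.mat_det g

theorem red_eq_one {g : Gamma0 M} (h : red q M g = 1) :
    (q : ℤ) ∣ mat g 0 1 ∧ (q : ℤ) ∣ mat g 1 0 := by
  constructor
  · have := congrArg (fun x : SL(2, ZMod q) => x 0 1) h
    simp [red_apply] at this
    exact (ZMod.intCast_zmod_eq_zero_iff_dvd _ q).1 this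
  · have := congrArg (fun x : SL(2, ZMod q) => x 1 0) h
    simp [red_apply] at this
    exact (ZMod.intCast_zmod_eq_zero_iff_dvd _ q).1 this

theorem coprime_of_not_dvd [Fact q.Prime] (hqM : ¬ q ∣ M) : IsCoprime (M : ℤ) (q : ℤ) :=
  Int.isCoprime_iff_nat_coprime.2 (by
    simpa using ((Nat.Prime.coprime_iff_not_dvd Fact.out).2 hqM).symm)

/-- Being in the smaller group. -/
theorem mem_small [Fact q.Prime] (hqM : ¬ q ∣ M) {g : Gamma0 M} (h : (q : ℤ) ∣ mat g 1 0) :
    (g : SL(2, ℤ)) ∈ Gamma0 (M * q) := by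
  refine Gamma0_mem.2 ((ZMod.intCast_zmod_eq_zero_iff_dvd _ _).2 ?_)
  push_cast
  exact (coprime_of_not_dvd hqM).mul_dvd (dvd_mul_level g) h

/-- The element of the smaller group attached to one with upper right entry divisible by `q`. -/
theorem exists_twist {g : Gamma0 M} (h : (q : ℤ) ∣ mat g 0 1) :
    ∃ X : Gamma0 (M * q), diagMat q * mat X = mat g * diagMat q := by
  obtain ⟨b, hb⟩ := h
  have hdet := det_eq g
  obtain ⟨c, hc⟩ := dvd_mul_level g
  refine ⟨gamma0Mk (M * q) (mat g 0 0) b (q * mat g 1 0) (mat g 1 1)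
    (by rw [hb] at hdet; linear_combination hdet) ⟨c, by rw [hc]; push_cast; ring⟩, ?_⟩
  rw [mat_gamma0Mk]
  ext i j
  fin_cases i <;> fin_cases j <;>
    simp [diagMat, Matrix.mul_apply, Fin.sum_univ_two, hb] <;> ring

theorem twist_unique [NeZero q] {N : ℕ} {X Y : Gamma0 N}
    (h : diagMat q * mat X = diagMat q * mat Y) : X = Y := by
  apply PeriodHecke.mat_injective
  have hq : (q : ℤ) ≠ 0 := by exact_mod_cast NeZero.ne q
  ext i j
  have := congrFun (congrFun h i) j
  fin_cases i <;> fin_cases j <;> simp [diagMat, Matrix.mul_apply, Fin.sum_univ_two] at this ⊢ <;>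
    first | exact this | exact this.resolve_right (NeZero.ne q)

/-- The upper unipotent element. -/
def upperEl (M : ℕ) (x : ℤ) : Gamma0 M := gamma0Mk M 1 x 0 1 (by ring) (dvd_zero _)

/-- The lower unipotent element. -/
def lowerEl (M : ℕ) (x : ℤ) : Gamma0 M := gamma0Mk M 1 0 (M * x) 1 (by ring) (dvd_mul_right _ _)

theorem exists_lower [Fact q.Prime] (hqM : ¬ q ∣ M) (c : ZMod q) :
    ∃ x : ℤ, ((M * x : ℤ) : ZMod q) = c := by
  have hM : (M : ZMod q) ≠ 0 := fun h => hqM ((ZMod.natCast_eq_zero_iff M q).1 h)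
  obtain ⟨x, hx⟩ := ZMod.intCast_surjective (c / (M : ZMod q))
  exact ⟨x, by push_cast; rw [hx, mul_div_cancel₀ _ hM]⟩

theorem red_surjective [Fact q.Prime] (hqM : ¬ q ∣ M) : Function.Surjective (red q M) := by
  have hlow : ∀ s : SL(2, ZMod q), s 1 0 ≠ 0 → s ∈ (red q M).range := by
    intro s hs
    obtain ⟨y, hy⟩ := exists_lower hqM (s 1 0)
    obtain ⟨x, hx⟩ := ZMod.intCast_surjective ((s 0 0 - 1) / s 1 0)
    obtain ⟨z, hz⟩ := ZMod.intCast_surjective ((s 1 1 - 1) / s 1 0)
    push_cast at hy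
    refine ⟨upperEl M x * lowerEl M y * upperEl M z, ?_⟩
    have hd : s 0 0 * s 1 1 - s 0 1 * s 1 0 = 1 := by
      have := s.2
      rwa [Matrix.det_fin_two] at this
    ext i j
    rw [red_apply, mat_mul, mat_mul]
    fin_cases i <;> fin_cases j <;>
      simp [upperEl, lowerEl, Matrix.mul_apply, Fin.sum_univ_two, hx, hy, hz] <;>
      field_simp <;> first | linear_combination hd | ring
  intro s
  by_cases hs : s 1 0 = 0
  · obtain ⟨y, hy⟩ := exists_lower hqM (1 : ZMod q)
    have h00 : s 0 0 ≠ 0 := by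
      intro h
      have := s.2
      rw [Matrix.det_fin_two, h, hs] at this
      simp at this
    have h1 : red q M (lowerEl M y) * s ∈ (red q M).range := by
      refine hlow _ ?_
      have hy' : red q M (lowerEl M y) 1 0 = 1 := by simpa [red_apply, lowerEl] using hy
      have hy1 : red q M (lowerEl M y) 1 1 = 1 := by simp [red_apply, lowerEl]
      simp [Matrix.SpecialLinearGroup.coe_mul, Matrix.mul_apply, Fin.sum_univ_two, hy', hy1, hs,
        h00]
    simpa using mul_mem (inv_mem ⟨_, rfl⟩ : (red q M (lowerEl M y))⁻¹ ∈ (red q M).range) h1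
  · exact hlow s hs

theorem card_sl [Fact q.Prime] :
    Nat.card SL(2, ZMod q) * (q - 1) = q * (q + 1) * (q - 1) * (q - 1) := by
  have h1 : Nat.card (Matrix.GeneralLinearGroup (Fin 2) (ZMod q)) =
      Nat.card SL(2, ZMod q) * Nat.card (ZMod q)ˣ := by
    let d : Matrix.GeneralLinearGroup (Fin 2) (ZMod q) →* (ZMod q)ˣ :=
      Matrix.GeneralLinearGroup.det
    have hsurj : Function.Surjective d := fun c =>
      ⟨Matrix.GeneralLinearGroup.mkOfDetNeZero !![(c : ZMod q), 0; 0, 1]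
        (by simp [Matrix.det_fin_two_of]), Units.ext (by simp [d, Matrix.det_fin_two])⟩
    rw [Subgroup.card_eq_card_quotient_mul_card_subgroup d.ker,
      Nat.card_congr (QuotientGroup.quotientKerEquivOfSurjective d hsurj).toEquiv, mul_comm]
    congr 1
    refine (Nat.card_eq_of_bijective
      (fun s : SL(2, ZMod q) => (⟨Matrix.SpecialLinearGroup.toGL s, Units.ext (by
        simp [d])⟩ : d.ker)) ⟨fun a b h => ?_, fun g => ?_⟩).symm
    · exact Subtype.ext (congrArg
        (fun x : d.ker => ((x : Matrix.GeneralLinearGroup (Fin 2) (ZMod q)) :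
          Matrix (Fin 2) (Fin 2) (ZMod q))) h)
    · exact ⟨⟨((g : Matrix.GeneralLinearGroup (Fin 2) (ZMod q)) :
        Matrix (Fin 2) (Fin 2) (ZMod q)), congrArg Units.val g.2⟩, Subtype.ext (Units.ext rfl)⟩
  rw [Matrix.card_GL_field, Nat.card_units, Nat.card_zmod] at h1
  rw [← h1, Fin.prod_univ_two]
  simp only [ZMod.card, Fin.val_zero, pow_zero, Fin.val_one, pow_one]
  obtain ⟨k, hk⟩ : ∃ k, q = k + 1 := ⟨q - 1, by have := (Fact.out : q.Prime).one_le; omega⟩
  subst hk
  simp only [Nat.add_sub_cancel]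
  rw [show (k + 1) ^ 2 - 1 = k * (k + 2) by rw [show (k + 1) ^ 2 = k * (k + 2) + 1 by ring]; omega,
    show (k + 1) ^ 2 - (k + 1) = k * (k + 1) by
      rw [show (k + 1) ^ 2 = k * (k + 1) + (k + 1) by ring]; omega]
  ring

theorem index_zpowers [Fact q.Prime] {p : ℕ} [Fact p.Prime] (hp2 : p ≠ 2) (hpq : p ∣ q + 1)
    (t : SL(2, ZMod q)) (ht : orderOf t = p ^ (q + 1).factorization p) :
    ¬ p ∣ (Subgroup.zpowers t).index := by
  have hp : p.Prime := Fact.out
  have hq : q.Prime := Fact.out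
  set P := p ^ (q + 1).factorization p with hP
  have hcard : Nat.card SL(2, ZMod q) = q * (q + 1) * (q - 1) :=
    Nat.eq_of_mul_eq_mul_right (by have := hq.two_le; omega) card_sl
  have hi := (Subgroup.zpowers t).card_mul_index
  rw [Nat.card_zpowers, ht, hcard] at hi
  set R := (q + 1) / P with hR
  have hPR : P * R = q + 1 := Nat.ordProj_mul_ordCompl_eq_self _ _
  have hnR : ¬ p ∣ R := Nat.not_dvd_ordCompl hp (by omega)
  have hidx : (Subgroup.zpowers t).index = q * R * (q - 1) := by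
    refine Nat.eq_of_mul_eq_mul_left (pow_pos hp.pos ((q + 1).factorization p)) ?_
    rw [← hP, hi]
    calc q * (q + 1) * (q - 1) = q * (P * R) * (q - 1) := by rw [hPR]
      _ = P * (q * R * (q - 1)) := by ring
  have hpq' : ¬ p ∣ q := fun h => hp.one_lt.ne' (Nat.dvd_one.1 ((Nat.dvd_add_right h).1 hpq))
  have hpq1 : ¬ p ∣ q - 1 := fun h => by
    have h2 := Nat.dvd_sub hpq h
    rw [show q + 1 - (q - 1) = 2 by have := hq.one_le; omega] at h2
    exact hp2 ((Nat.prime_dvd_prime_iff_eq hp Nat.prime_two).1 h2)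
  rw [hidx]
  intro h
  rcases hp.dvd_mul.1 h with h | h
  · rcases hp.dvd_mul.1 h with h | h
    · exact hpq' h
    · exact hnR h
  · exact hpq1 h

theorem upper_pow (a b d : ZMod q) (n : ℕ) :
    ∃ x, (!![a, b; 0, d] : Matrix (Fin 2) (Fin 2) (ZMod q)) ^ n = !![a ^ n, x; 0, d ^ n] ∧
      (a = 1 → d = 1 → x = n * b) := by
  induction n with
  | zero => exact ⟨0, by simp [Matrix.one_fin_two], fun _ _ => by simp⟩
  | succ n ih =>
    obtain ⟨x, hx, hx'⟩ := ih
    refine ⟨a ^ n * b + x * d, ?_, fun ha hd => ?_⟩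
    · rw [pow_succ, hx]
      ext i j
      fin_cases i <;> fin_cases j <;> simp [Matrix.mul_apply, Fin.sum_univ_two, pow_succ]
    · rw [hx' ha hd, ha, hd]; push_cast; ring

theorem pow_small [Fact q.Prime] {g : Gamma0 M} (h : (q : ℤ) ∣ mat g 1 0) :
    g ^ ((q - 1) * q) ∈ (red q M).ker := by
  rw [MonoidHom.mem_ker, map_pow]
  have h10 : red q M g 1 0 = 0 := by
    rw [red_apply]; exact (ZMod.intCast_zmod_eq_zero_iff_dvd _ q).2 h
  have hd : red q M g 0 0 * red q M g 1 1 = 1 := by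
    have := (red q M g).2
    rw [Matrix.det_fin_two, h10] at this
    simpa using this
  obtain ⟨x, hx, -⟩ := upper_pow (red q M g 0 0) (red q M g 0 1) (red q M g 1 1) (q - 1)
  rw [ZMod.pow_card_sub_one_eq_one (left_ne_zero_of_mul (hd.trans_ne one_ne_zero)),
    ZMod.pow_card_sub_one_eq_one (right_ne_zero_of_mul (hd.trans_ne one_ne_zero))] at hx
  obtain ⟨y, hy, hy'⟩ := upper_pow (1 : ZMod q) x 1 q
  have hy0 := hy' rfl rfl
  rw [ZMod.natCast_self, zero_mul] at hy0
  apply Subtype.ext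
  rw [pow_mul, Matrix.SpecialLinearGroup.coe_pow, Matrix.SpecialLinearGroup.coe_pow,
    show ((red q M g : SL(2, ZMod q)) : Matrix (Fin 2) (Fin 2) (ZMod q)) =
      !![red q M g 0 0, red q M g 0 1; 0, red q M g 1 1] by
      ext i j; fin_cases i <;> fin_cases j <;> simp [h10],
    hx, hy, hy0]
  simp [Matrix.one_fin_two]

theorem pow_parabolic [Fact q.Prime] {g : Gamma0 M} (h : mat g 0 0 + mat g 1 1 = 2 ∨
    mat g 0 0 + mat g 1 1 = -2) : g ^ (2 * q) ∈ (red q M).ker := by
  rw [MonoidHom.mem_ker, map_pow]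
  apply Subtype.ext
  rw [Matrix.SpecialLinearGroup.coe_pow]
  set A : Matrix (Fin 2) (Fin 2) (ZMod q) :=
    ((red q M g : SL(2, ZMod q)) : Matrix (Fin 2) (Fin 2) (ZMod q)) with hA
  have hd : A 0 0 * A 1 1 - A 0 1 * A 1 0 = 1 := by
    rw [← Matrix.det_fin_two]; exact (red q M g).2
  have htr : (A 0 0 + A 1 1) ^ 2 = 4 := by
    rw [hA, red_apply, red_apply, ← Int.cast_add]
    rcases h with h | h <;> rw [h] <;> norm_num
  have hAA : A * A = (A 0 0 + A 1 1) • A - 1 := by
    ext i j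
    fin_cases i <;> fin_cases j <;> simp [Matrix.mul_apply, Fin.sum_univ_two] <;>
      first | linear_combination hd | linear_combination -hd | ring
  have hN : (A ^ 2 - 1) ^ 2 = 0 := by
    rw [sq, sq, hAA]
    simp only [sub_mul, mul_sub, Matrix.smul_mul, Matrix.mul_smul, smul_smul, one_mul, mul_one,
      smul_sub, hAA]
    rw [← sq, htr]
    module
  have key : ∀ n : ℕ, (1 + (A ^ 2 - 1)) ^ n = 1 + n • (A ^ 2 - 1) := by
    intro n
    induction n with
    | zero => simp
    | succ n ih =>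
      rw [pow_succ, ih, add_mul, one_mul, smul_mul_assoc, mul_add, mul_one, ← sq, hN, add_zero,
        succ_nsmul]
      abel
  rw [pow_mul, show A ^ 2 = 1 + (A ^ 2 - 1) by abel, key q, ← Nat.cast_smul_eq_nsmul (ZMod q),
    ZMod.natCast_self, zero_smul, add_zero]
  rfl

theorem twist_mul {N : ℕ} {X Y : Gamma0 N} {g h : Gamma0 M}
    (hX : diagMat q * mat X = mat g * diagMat q) (hY : diagMat q * mat Y = mat h * diagMat q) :
    diagMat q * mat (X * Y) = mat (g * h) * diagMat q := by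
  rw [mat_mul, mat_mul, ← mul_assoc, hX, mul_assoc, hY, mul_assoc]

theorem twist_inv {N : ℕ} {X : Gamma0 N} {g : Gamma0 M}
    (hX : diagMat q * mat X = mat g * diagMat q) :
    diagMat q * mat X⁻¹ = mat g⁻¹ * diagMat q := by
  calc diagMat q * mat X⁻¹ = mat g⁻¹ * (mat g * diagMat q) * mat X⁻¹ := by
        rw [← mul_assoc (mat g⁻¹), ← mat_mul, inv_mul_cancel, mat_one, one_mul]
    _ = mat g⁻¹ * diagMat q := by
        rw [← hX, mul_assoc, mul_assoc, ← mat_mul, mul_inv_cancel, mat_one, mul_one]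

theorem trace_ne_one_of_dvd {l : ℕ} [Fact l.Prime] (hl : l % 3 = 2) (g : Gamma0 M) (hlM : l ∣ M) :
    mat g 0 0 + mat g 1 1 ≠ 1 ∧ mat g 0 0 + mat g 1 1 ≠ -1 := by
  have hlp : l.Prime := Fact.out
  have hc : (mat g 1 0 : ZMod l) = 0 :=
    (ZMod.intCast_zmod_eq_zero_iff_dvd _ _).2 ((Int.natCast_dvd_natCast.2 hlM).trans
      (dvd_mul_level g))
  have hdet : (mat g 0 0 : ZMod l) * (mat g 1 1 : ZMod l) = 1 := by
    have h := congrArg (fun z : ℤ => (z : ZMod l)) (det_eq g)
    simpa [hc] using h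
  have key : ∀ y : ZMod l, y ^ 2 + y + 1 ≠ 0 := by
    intro y hy
    have h3 : y ^ 3 = 1 := by linear_combination (y - 1) * hy
    have hy0 : y ≠ 0 := fun h => by simp [h] at h3
    have hd : orderOf y ∣ 3 := orderOf_dvd_of_pow_eq_one h3
    have hd' : orderOf y ∣ l - 1 := orderOf_dvd_of_pow_eq_one (ZMod.pow_card_sub_one_eq_one hy0)
    have h1 : orderOf y = 1 := by
      rcases (Nat.dvd_prime Nat.prime_three).1 hd with h | h
      · exact h
      · rw [h] at hd'; omega
    rw [orderOf_eq_one_iff] at h1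
    subst h1
    have h30 : ((3 : ℕ) : ZMod l) = 0 := by push_cast; linear_combination hy
    have := (Nat.prime_dvd_prime_iff_eq hlp Nat.prime_three).1 ((ZMod.natCast_eq_zero_iff 3 l).1 h30)
    omega
  constructor <;> intro h
  · have h' := congrArg (fun z : ℤ => (z : ZMod l)) h
    push_cast at h'
    exact key (-(mat g 0 0 : ZMod l)) (by linear_combination (mat g 0 0 : ZMod l) * h' - hdet)
  · have h' := congrArg (fun z : ℤ => (z : ZMod l)) h
    push_cast at h'
    exact key (mat g 0 0 : ZMod l) (by linear_combination (mat g 0 0 : ZMod l) * h' - hdet)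

/-- **Extension.** A homomorphism killed by `p` on `Γ₀(Mq)` compatible with the twist by
`τ ↦ q τ` extends to `Γ₀(M)`. -/
theorem exists_extension [Fact q.Prime] [NeZero q] (hqM : ¬ q ∣ M) {p : ℕ} [Fact p.Prime]
    (hp2 : p ≠ 2) (hpq : p ∣ q + 1) (hl : p = 3 → ∃ l : ℕ, l.Prime ∧ l ∣ M ∧ l % 3 = 2)
    {A : Type*} [AddCommGroup A] (χ₁ χ : Hpar (Gamma0 (M * q)) A)
    (hχ₁ : p • χ₁ = 0) (hχ : p • χ = 0)
    (h : ∀ g d : Gamma0 (M * q), diagMat q * mat g = mat d * diagMat q →
      (χ₁ : Additive (Gamma0 (M * q)) →+ A) (Additive.ofMul g) =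
        (χ : Additive (Gamma0 (M * q)) →+ A) (Additive.ofMul d)) :
    ∃ ψ : Hpar (Gamma0 M) A, p • ψ = 0 ∧
      ∀ (g : Gamma0 (M * q)) (g' : Gamma0 M), mat g' = mat g →
        (ψ : Additive (Gamma0 M) →+ A) (Additive.ofMul g') =
          (χ : Additive (Gamma0 (M * q)) →+ A) (Additive.ofMul g) := by
  classical
  have hp : p.Prime := Fact.out
  have hq : q.Prime := Fact.out
  set c₁ : Additive (Gamma0 (M * q)) →+ A := χ₁.1 with hc₁
  set c : Additive (Gamma0 (M * q)) →+ A := χ.1 with hcdef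
  have hcp : ∀ g, p • c g = 0 := fun g =>
    DFunLike.congr_fun (congrArg Subtype.val hχ) g
  let θ : Gamma0 M → A := fun g =>
    if hg : (g : SL(2, ℤ)) ∈ Gamma0 (M * q) then c (Additive.ofMul ⟨g, hg⟩) else 0
  have hθ : ∀ (g : Gamma0 M) (g₀ : Gamma0 (M * q)), mat g = mat g₀ →
      θ g = c (Additive.ofMul g₀) := by
    intro g g₀ hg
    have h1 : (g : SL(2, ℤ)) = g₀ := Subtype.ext hg
    have h2 : (g : SL(2, ℤ)) ∈ Gamma0 (M * q) := h1 ▸ g₀.2
    simp only [θ, dif_pos h2]
    exact PeriodHecke.hom_congr c hg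
  have hker : ∀ g : Gamma0 M, g ∈ (red q M).ker → ∃ g₀ : Gamma0 (M * q), mat g = mat g₀ :=
    fun g hg => ⟨⟨_, mem_small hqM (red_eq_one hg).2⟩, rfl⟩
  have hadd : ∀ a b : Gamma0 M, a ∈ (red q M).ker → b ∈ (red q M).ker →
      θ (a * b) = θ a + θ b := by
    intro a b ha hb
    obtain ⟨a₀, ha₀⟩ := hker a ha
    obtain ⟨b₀, hb₀⟩ := hker b hb
    rw [hθ _ (a₀ * b₀) (by rw [mat_mul, mat_mul, ha₀, hb₀]), hθ a a₀ ha₀, hθ b b₀ hb₀, ofMul_mul,
      map_add]
  -- elements leaving the values invariant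
  let S : Subgroup (Gamma0 M) :=
    { carrier := {g | ∀ n : Gamma0 M, n ∈ (red q M).ker → θ (g * n * g⁻¹) = θ n}
      one_mem' := fun n _ => by simp
      mul_mem' := fun {a b} ha hb n hn => by
        rw [show a * b * n * (a * b)⁻¹ = a * (b * n * b⁻¹) * a⁻¹ by group,
          ha _ ((red q M).normal_ker.conj_mem _ hn b), hb n hn]
      inv_mem' := fun {a} ha n hn => by
        have h1 := ha _ ((red q M).normal_ker.conj_mem _ hn a⁻¹)
        rw [show a * (a⁻¹ * n * a⁻¹⁻¹) * a⁻¹ = n by group] at h1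
        exact h1.symm }
  have hS1 : ∀ g : Gamma0 M, (q : ℤ) ∣ mat g 1 0 → g ∈ S := by
    intro g hg n hn
    obtain ⟨n₀, hn₀⟩ := hker n hn
    let g₀ : Gamma0 (M * q) := ⟨g, mem_small hqM hg⟩
    have hi : mat g⁻¹ = mat g₀⁻¹ := rfl
    have hg0 : mat g = mat g₀ := rfl
    rw [hθ _ (g₀ * n₀ * g₀⁻¹) (by rw [mat_mul, mat_mul, mat_mul, mat_mul, hn₀, hi, hg0]),
      hθ n n₀ hn₀]
    simp only [ofMul_mul, ofMul_inv, map_add, map_neg]
    abel
  have hcomp : ∀ (n : Gamma0 M) (X : Gamma0 (M * q)), n ∈ (red q M).ker →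
      diagMat q * mat X = mat n * diagMat q → θ n = c₁ (Additive.ofMul X) := by
    intro n X hn hX
    obtain ⟨n₀, hn₀⟩ := hker n hn
    rw [hθ n n₀ hn₀]
    exact (h X n₀ (by rw [hX, hn₀])).symm
  have hS2 : ∀ g : Gamma0 M, (q : ℤ) ∣ mat g 0 1 → g ∈ S := by
    intro g hg n hn
    obtain ⟨X, hX⟩ := exists_twist hg
    obtain ⟨Y, hY⟩ := exists_twist (red_eq_one hn).1
    rw [hcomp _ (X * Y * X⁻¹) ((red q M).normal_ker.conj_mem _ hn g)
      (twist_mul (twist_mul hX hY) (twist_inv hX)), hcomp n Y hn hY]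
    simp only [ofMul_mul, ofMul_inv, map_add, map_neg]
    abel
  have hStop : ∀ g : Gamma0 M, g ∈ S := by
    have hL : ∀ g : Gamma0 M, ¬ (q : ℤ) ∣ mat g 0 0 → g ∈ S := by
      intro g hg
      have ha : (mat g 0 0 : ZMod q) ≠ 0 := fun h0 =>
        hg ((ZMod.intCast_zmod_eq_zero_iff_dvd _ q).1 h0)
      obtain ⟨y, hy⟩ := exists_lower hqM (-(mat g 1 0 : ZMod q) / (mat g 0 0 : ZMod q))
      have h1 : lowerEl M y * g ∈ S := by
        refine hS1 _ ((ZMod.intCast_zmod_eq_zero_iff_dvd _ q).1 ?_)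
        rw [mat_mul]
        simp only [lowerEl, mat_gamma0Mk, Matrix.mul_apply, Fin.sum_univ_two]
        simp only [Matrix.of_apply, Matrix.cons_val', Matrix.cons_val_zero, Matrix.cons_val_one,
          Matrix.empty_val', Matrix.cons_val_fin_one, one_mul, Int.cast_add]
        rw [Int.cast_mul, hy]
        field_simp
        ring
      have h2 : lowerEl M y ∈ S := hS2 _ (by simp [lowerEl])
      simpa using mul_mem (inv_mem h2) h1
    intro g
    by_cases hg : (q : ℤ) ∣ mat g 0 0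
    · have h1 : upperEl M 1 * g ∈ S := by
        refine hL _ fun h0 => ?_
        rw [mat_mul] at h0
        simp [upperEl, Matrix.mul_apply, Fin.sum_univ_two] at h0
        have h10 : (q : ℤ) ∣ mat g 1 0 := by simpa using dvd_sub h0 hg
        have hdet := det_eq g
        have : (q : ℤ) ∣ 1 := hdet ▸ dvd_sub (hg.mul_right _) (h10.mul_left _)
        exact hq.one_lt.ne' (Nat.dvd_one.1 (Int.natCast_dvd_natCast.1 (by simpa using this)))
      have h2 : upperEl M 1 ∈ S := hS1 _ (by simp [upperEl])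
      simpa using mul_mem (inv_mem h2) h1
    · exact hL g hg
  -- the element of the torus
  set v := (q + 1).factorization p with hv
  have hv0 : 0 < v := hp.factorization_pos_of_dvd (by omega) hpq
  have hP2 : 2 < p ^ v := by
    have h3 : 3 ≤ p := by have := hp.two_le; omega
    exact lt_of_lt_of_le (by omega) (Nat.le_self_pow hv0.ne' p)
  obtain ⟨t, w, ht, hw⟩ := exists_torus_elements (Nat.ordProj_dvd (q + 1) p) hP2
  have hord : orderOf t = p ^ v := by
    apply Nat.dvd_antisymm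
    · rw [orderOf_dvd_iff_pow_eq_one, ht]
    · rw [← ht]; exact pow_orderOf_eq_one t
  have hθp : ∀ a ∈ (red q M).ker, p • θ a = 0 := fun a ha => by
    obtain ⟨a₀, ha₀⟩ := hker a ha
    rw [hθ a a₀ ha₀]; exact hcp _
  obtain ⟨ψ, hψp, hψ⟩ := exists_hom_of_ker (red q M) (red_surjective hqM) θ hadd
    (fun g a ha => hStop g a ha) hp hp2 (dvd_pow_self p hv0.ne') hθp t w ht hw
    (index_zpowers hp2 hpq t hord)
  have hψp' : ∀ x, p • ψ x = 0 := fun x => DFunLike.congr_fun hψp x
  -- killed by `p` and by a prime to `p`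
  have hcancel : ∀ (x : A) (e : ℕ), p • x = 0 → ¬ p ∣ e → e • x = 0 → x = 0 := by
    intro x e hx he hex
    exact AddMonoid.addOrderOf_eq_one_iff.1 (Nat.eq_one_of_dvd_coprimes
      ((Nat.Prime.coprime_iff_not_dvd hp).2 he) (addOrderOf_dvd_of_nsmul_eq_zero hx)
      (addOrderOf_dvd_of_nsmul_eq_zero hex))
  have hpq' : ¬ p ∣ q := fun h => hp.one_lt.ne' (Nat.dvd_one.1 ((Nat.dvd_add_right h).1 hpq))
  have hp2' : ¬ p ∣ 2 := fun h => hp2 ((Nat.prime_dvd_prime_iff_eq hp Nat.prime_two).1 h)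
  have hpq1 : ¬ p ∣ q - 1 := fun h => by
    have h2 := Nat.dvd_sub hpq h
    rw [show q + 1 - (q - 1) = 2 by have := hq.one_le; omega] at h2
    exact hp2' h2
  have hrestr : ∀ (g : Gamma0 (M * q)) (g' : Gamma0 M), mat g' = mat g →
      ψ (Additive.ofMul g') = c (Additive.ofMul g) := by
    intro g g' hg
    have h10 : (q : ℤ) ∣ mat g' 1 0 := by
      rw [hg]
      exact (Int.natCast_dvd_natCast.2 (dvd_mul_left q M)).trans (dvd_mul_level g)
    have hpow : ∀ n : ℕ, mat (g' ^ n) = mat (g ^ n) := fun n => by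
      induction n with
      | zero => rfl
      | succ n ih => rw [pow_succ, pow_succ, mat_mul, mat_mul, ih, hg]
    have h1 := hψ _ (pow_small h10)
    rw [hθ _ _ (hpow _), ofMul_pow, map_nsmul, ofMul_pow, map_nsmul] at h1
    refine sub_eq_zero.1 (hcancel _ ((q - 1) * q) ?_ ?_ ?_)
    · rw [smul_sub, hψp', hcp, sub_zero]
    · intro h; rcases hp.dvd_mul.1 h with h | h
      exacts [hpq1 h, hpq' h]
    · rw [smul_sub, h1, sub_self]
  refine ⟨⟨ψ, fun g hg => ?_⟩, Subtype.ext hψp, hrestr⟩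
  have hb : -2 ≤ (mat g).trace ∧ (mat g).trace ≤ 2 := by constructor <;> nlinarith
  have htr : (mat g).trace = mat g 0 0 + mat g 1 1 := Matrix.trace_fin_two _
  by_cases hpar : (mat g).trace = 2 ∨ (mat g).trace = -2
  · have hk := pow_parabolic (q := q) (g := g) (by rwa [← htr])
    obtain ⟨g₀, hg₀⟩ := hker _ hk
    refine hcancel _ (2 * q) (hψp' _) (fun h => ?_) ?_
    · rcases hp.dvd_mul.1 h with h | h
      exacts [hp2' h, hpq' h]
    · rw [← map_nsmul, ← ofMul_pow, hψ _ hk, hθ _ g₀ hg₀]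
      refine χ.2 g₀ ?_
      rw [← hg₀]
      have hm : ∀ n : ℕ, mat (g ^ n) = mat g ^ n := fun n => by
        induction n with
        | zero => exact mat_one
        | succ n ih => rw [pow_succ, mat_mul, ih, pow_succ]
      rw [hm]
      exact PeriodHecke.trace_pow_le _ (PeriodHecke.mat_det g) hg _
  · have h12 : (mat g) ^ 12 = 1 := PeriodHecke.pow_twelve_eq_one _ (PeriodHecke.mat_det g) (by
      rcases not_or.1 hpar with ⟨h1, h2⟩
      have : -1 ≤ (mat g).trace ∧ (mat g).trace ≤ 1 := by omega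
      nlinarith [this.1, this.2])
    have hm : ∀ n : ℕ, mat (g ^ n) = mat g ^ n := fun n => by
      induction n with
      | zero => exact mat_one
      | succ n ih => rw [pow_succ, mat_mul, ih, pow_succ]
    by_cases h3 : p = 3
    · obtain ⟨l, hlp, hlM, hl3⟩ := hl h3
      haveI : Fact l.Prime := ⟨hlp⟩
      obtain ⟨ha, hb'⟩ := trace_ne_one_of_dvd hl3 g hlM
      have h0 : (mat g).trace = 0 := by
        rcases not_or.1 hpar with ⟨h1, h2⟩
        rw [htr] at h1 h2 hb ⊢
        omega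
      have h4 : g ^ 4 = 1 := PeriodHecke.mat_injective (by
        have hd := PeriodHecke.mat_det g
        rw [Matrix.det_fin_two] at hd
        rw [htr] at h0
        have h2 : mat g * mat g = -1 := by
          ext i j
          fin_cases i <;> fin_cases j <;> simp [Matrix.mul_apply, Fin.sum_univ_two]
          · linear_combination (mat g 0 0) * h0 - hd
          · linear_combination (mat g 0 1) * h0
          · linear_combination (mat g 1 0) * h0
          · linear_combination (mat g 1 1) * h0 - hd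
        rw [hm, mat_one, show 4 = 2 * 2 from rfl, pow_mul, sq, sq, h2, neg_mul_neg, one_mul])
      refine hcancel _ 4 (hψp' _) (fun h => ?_) ?_
      · subst h3; omega
      · rw [← map_nsmul, ← ofMul_pow, h4, ofMul_one, map_zero]
    · have h4 : g ^ 12 = 1 := PeriodHecke.mat_injective (by rw [hm, h12, mat_one])
      refine hcancel _ 12 (hψp' _) (fun h => ?_) ?_
      · rcases hp.dvd_mul.1 (show p ∣ 4 * 3 from h) with h' | h'
        · exact hp2' (hp.dvd_of_dvd_pow (show p ∣ 2 ^ 2 from h'))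
        · exact h3 ((Nat.prime_dvd_prime_iff_eq hp Nat.prime_three).1 h')
      · rw [← map_nsmul, ← ofMul_pow, h4, ofMul_one, map_zero]

end FLTAgent.Entry.Old
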