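import Fermat.Agent.Entry.Assembly.Pull
import Fermat.Agent.TorsionHom.HeckeCompat
import Fermat.Agent.LevelRaise.Transfer

/-!
# Characters of pulled back classes
-/

set_option autoImplicit false
set_option linter.style.haveILetI false
set_option linter.unusedSectionVars false
set_option synthInstance.maxHeartbeats 400000
set_option maxHeartbeats 1000000

noncomputable section

open AlgebraicCurve ModularCurve CongruenceSubgroup UpperHalfPlane
open scoped MatrixGroups Manifold

namespace FLTAgent.Entry.Old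

open FLTAgent.X0Fn FLTAgent.TorsionHom
open FLTAgent.CuspForms (mulHalfPlane)
open FLTAgent.PeriodHecke (mat mat_mul)

local notation "QA" => AlgebraicClosure ℚ
local notation "Cx" => Additive ℂˣ

variable {N l : ℕ} [NeZero N] [NeZero l] [NeZero (N * l)]

omit [NeZero N] [NeZero (N * l)] in
theorem cancel_diag {X Y : Gamma0 N} (h : mat X * diagMat l = mat Y * diagMat l) : X = Y := by
  refine PeriodHecke.mat_injective (Matrix.ext fun i j => ?_)
  have hij := congrFun (congrFun h i) j
  have hl : (l : ℤ) ≠ 0 := Int.natCast_ne_zero.2 (NeZero.ne l)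
  fin_cases j <;> simp [diagMat, Matrix.mul_apply, Fin.sum_univ_two, hl] at hij ⊢
  · exact hij.resolve_right (NeZero.ne l)
  · exact hij

omit [NeZero N] [NeZero l] [NeZero (N * l)] in
theorem exists_down (g : Gamma0 (N * l)) : ∃ Y : Gamma0 N, diagMat l * mat g = mat Y * diagMat l :=
  exists_conj N l (X := LevelRaise.incl (dvd_mul_right N l) g)
    (PeriodHecke.dvd_lower_left (N * l) g)

variable (N l) in
/-- Conjugation by the matrix of `τ ↦ l τ`. -/
def conjDown : Gamma0 (N * l) →* Gamma0 N :=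
  MonoidHom.mk' (fun g => (exists_down g).choose) fun g g' => cancel_diag (l := l) (by
    have h1 := (exists_down g).choose_spec
    have h2 := (exists_down g').choose_spec
    have h3 := (exists_down (g * g')).choose_spec
    refine h3.symm.trans ?_
    calc diagMat l * mat (g * g') = diagMat l * mat g * mat g' := by rw [mat_mul, mul_assoc]
      _ = mat (exists_down g).choose * diagMat l * mat g' := congrArg (· * mat g') h1
      _ = mat (exists_down g).choose * (diagMat l * mat g') := mul_assoc _ _ _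
      _ = mat (exists_down g).choose * (mat (exists_down g').choose * diagMat l) :=
        congrArg (mat (exists_down g).choose * ·) h2
      _ = _ := by rw [← mul_assoc, ← mat_mul])

theorem conjDown_spec (g : Gamma0 (N * l)) :
    diagMat l * mat g = mat (conjDown N l g) * diagMat l := (exists_down g).choose_spec

theorem conjDown_eq {g : Gamma0 (N * l)} {Y : Gamma0 N}
    (h : diagMat l * mat g = mat Y * diagMat l) : conjDown N l g = Y :=
  cancel_diag (l := l) ((conjDown_spec g).symm.trans h)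

variable {κ : QA →+* ℂ} {n : ℕ}

/-- Pull back of characters along a map of curves. -/
theorem isKummer_pull (hn : n ≠ 0)
    (φ : modularFunctionFieldBar N →ₐ[QA] modularFunctionFieldBar (N * l))
    (φA : XA QA N → XA QA (N * l))
    (hφA : ∀ a, φ (incA QA N a) = incA QA (N * l) (φA a))
    (s : ℍ → ℍ) (hs : MDiff s)
    (hW : ∀ a τ, (toW κ (φA a) : ℍ → ℂ) τ = (toW κ a : ℍ → ℂ) (s τ))
    (ι : Gamma0 (N * l) →* Gamma0 N)
    (hι : ∀ (g : Gamma0 (N * l)) τ, s ((g : SL(2, ℤ)) • τ) = (ι g : SL(2, ℤ)) • s τ)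
    {c : Pic0 QA (XF QA N)} {χ : Additive (Gamma0 N) →+ Cx} (h : IsKummer κ n c χ) :
    IsKummer κ n (pullPic N l φ c) (χ.comp ι.toAdditive) := by
  haveI := (isFunctionField_and_finrank (N := N) κ).1
  haveI := (isFunctionField_and_finrank (N := N * l) κ).1
  haveI : HasPrincipalDivisors QA (modularFunctionFieldBar (N * l)) := Curves.hasPrincipalDivisors
  obtain ⟨D, x, rfl, hx, hD, hχ⟩ := h
  obtain ⟨hmem, hmk⟩ := pullPic_mk φ D
  have hx' : φ x ≠ 0 := (map_ne_zero _).2 hx
  have hord : ∀ w, (n : ℤ) * Divisor.pullbackAlong φ (Kronecker.isIntegralAlong φ)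
      (D : Divisor QA (XF QA N)) w = w.ord (φ x) := fun w => by
    have hp : Divisor.pullbackAlong φ (Kronecker.isIntegralAlong φ)
        ((n : ℤ) • (D : Divisor QA (XF QA N))) w = w.ord (φ x) := by
      letI := algebraAlong φ
      haveI := isScalarTower_along φ
      haveI := isIntegral_along φ (Kronecker.isIntegralAlong φ)
      exact Divisor.pullback_apply_eq_ord (fun v => by simp [hD v]) w
    rw [← hp, map_zsmul, Finsupp.smul_apply, smul_eq_mul]
  refine ⟨⟨_, hmem⟩, φ x, hmk.symm, hx', hord, ?_⟩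
  obtain ⟨a, b, hab⟩ := exists_incA_div x
  have hb : b ≠ 0 := fun h0 => hx (by rw [hab, h0, map_zero, div_zero])
  have hxe : x * incA QA N b = incA QA N a := by
    rw [hab, div_mul_cancel₀ _ (incA_eq_zero_iff.not.2 hb)]
  have hye : φ x * incA QA (N * l) (φA b) = incA QA (N * l) (φA a) := by
    rw [← hφA, ← hφA, ← map_mul, hxe]
  have hφb : φA b ≠ 0 := fun h0 => hb (incA_eq_zero_iff.1 ((map_eq_zero φ).1
    ((hφA b).trans (by rw [h0, map_zero]))))
  have hB : toW κ b ≠ 0 := (map_ne_zero_iff _ (toW_injective κ)).2 hb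
  obtain ⟨R, hR⟩ := exists_root_rep κ hx hn (fun v => ⟨_, (hD v).symm⟩) hB (iota_mul_expW hxe)
  have hroot : IsRoot (N := N) κ n (x : LaurentSeries QA) R := ⟨_, _, hB, iota_mul_expW hxe, hR⟩
  have hx0 : (x : LaurentSeries QA) ≠ 0 := fun e => hx (Subtype.ext e)
  obtain ⟨χ₀, hc₀, -⟩ := exists_hasChar hn (hroot.ne_zero hn hx0) hR
  obtain rfl : χ = χ₀ := hχ.unique hn hx0 ⟨R, hroot, hc₀⟩
  refine ⟨⟨fun τ => (R : ℍ → ℂ) (s τ), R.2.comp hs⟩, ⟨_, _,
    (map_ne_zero_iff _ (toW_injective κ)).2 hφb, iota_mul_expW hye, Subtype.ext (funext fun τ => ?_)⟩,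
    fun γ τ => ?_⟩
  · have e := congrFun (congrArg Subtype.val hR) (s τ)
    simp only [SubmonoidClass.coe_pow, Pi.pow_apply, coe_toHol, MulMemClass.coe_mul,
      Pi.mul_apply] at e ⊢
    rw [hW, hW, e]
  · show (R : ℍ → ℂ) (s ((γ : SL(2, ℤ)) • τ)) = _
    rw [hι, hc₀]
    rfl

/-- Pull back along the forgetful map. -/
theorem isKummer_pull_alpha (hn : n ≠ 0) {c : Pic0 QA (XF QA N)} {χ : Additive (Gamma0 N) →+ Cx}
    (h : IsKummer κ n c χ) : IsKummer κ n (pullPic N l (heckeAlphaBar QA N l) c)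
      (χ.comp (LevelRaise.incl (dvd_mul_right N l)).toAdditive) :=
  isKummer_pull hn (heckeAlphaBar QA N l) (fun a => alphaA l a) (fun a => heckeAlphaBar_incA l a)
    id mdifferentiable_id (fun a τ => by rw [toW_alphaA]; rfl)
    (LevelRaise.incl (dvd_mul_right N l))
    (fun g τ => by rw [LevelRaise.coe_incl]; rfl) h

/-- Pull back along `τ ↦ l τ`. -/
theorem isKummer_pull_beta (hn : n ≠ 0) {c : Pic0 QA (XF QA N)} {χ : Additive (Gamma0 N) →+ Cx}
    (h : IsKummer κ n c χ) : IsKummer κ n (pullPic N l (heckeBetaBar QA N l) c)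
      (χ.comp (conjDown N l).toAdditive) :=
  isKummer_pull hn (heckeBetaBar QA N l) (fun a => betaA l a) (fun a => heckeBetaBar_incA l a)
    (mulHalfPlane l) (mdiff_mulHalfPlane l) (fun a τ => toW_betaA l κ a τ) (conjDown N l)
    (fun g τ => mulHalfPlane_smul l (conjDown_spec g) τ) h

end FLTAgent.Entry.Old
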