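import Fermat.Agent.Entry.Surjective
import Fermat.Agent.Entry.Assembly.Pull
import Fermat.Agent.Lowering.P7.Residual

/-!
# A class with both reductions powers is not pulled back from level `M`

The second reduction of a pull back along `τ ↦ q τ` is the reduction at level `M`, so such a class
comes from a class with trivial reduction.
-/

set_option autoImplicit false
set_option linter.style.haveILetI false
set_option linter.unusedSectionVars false
set_option synthInstance.maxHeartbeats 400000
set_option maxHeartbeats 1000000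

noncomputable section

open AlgebraicCurve ModularCurve IsLocalRing

namespace FLTAgent.Entry.Old

open FLTAgent.Curves FLTAgent.Specialization FLTAgent.BadRed FLTAgent.MazurPrinciple
open FLTAgent.Entry.Surj (InK)
open FLTAgent.Lowering.P7 (res_scale_eq)
open FLTAgent.Kronecker (eq_of_principal_of_bounded)

local notation "QA" => AlgebraicClosure ℚ

attribute [local instance 2000] Lowering.P7.fullCAlgebra Lowering.P7.laurentAlgebra
  Lowering.P7.x0BarAlgebra

variable {q : ℕ} [Fact q.Prime] [NeZero q] {M : ℕ} [NeZero M] [NeZero (M * q)] (hqM : ¬ q ∣ M)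
  {A : ValuationSubring QA} [IsAlgClosed (ResidueField A)] [CharP (ResidueField A) q]
  [Curves.IsFunctionField (ResidueField A) (modularFunctionFieldFullC (ResidueField A) M)]
  (hA : A.LiesOverPrime q)
  (hsm : (modularModel (π := residue A) residue_surjective M
    (BadRed.natCast_ne_zero hqM (ResidueField A))).Smooth)

local notation "kk" => ResidueField A
local notation "JM" => Divisor.degZero (K := QA) (F := X0Bar M)

include hA hqM in
/-- A class whose specialised divisor is principal reduces to zero. -/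
theorem reduction_eq_zero_of_isPrincipal {Y : JM}
    (h0 : (Model.divMap hsm (Y : Divisor QA (X0Bar M))).IsPrincipal) :
    reductionModL A M (Pic0.mk Y) = 0 := by
  have hgood : ∀ (M' : ℕ) [NeZero M'], auxLevel q ∣ M' → ¬ q ∣ M' → GoodLevel A M' :=
    fun M' _ h1 h2 => GoodModel.goodLevel hA M' h1 h2
  have h : ReductionInputsModL A M := reductionInputsModL hA hgood M hqM
  have hpl := isPlaceReductionAlong_place (BadRed.natCast_ne_zero hqM kk) hsm
  have hgen := principalGeneratedByIntegral hA M hqM
  have hpr := isPlaceReductionModL_placeReductionModL h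
  have hagree : Finsupp.mapDomain (placeReductionModL h) (Y : Divisor QA (X0Bar M)) =
      Model.divMap hsm (Y : Divisor QA (X0Bar M)) :=
    eq_of_principal_of_bounded
      (Finsupp.mapDomain.addMonoidHom (placeReductionModL h)) (Model.divMap hsm) 1
      (fun P Q => by
        rw [Finsupp.mapDomain.addMonoidHom_apply, Finsupp.mapDomain_single]
        exact_mod_cast Kronecker.abs_single_apply_le _ _)
      (fun P Q => by
        rw [Model.divMap_single]
        exact_mod_cast Kronecker.abs_single_apply_le _ _)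
      (fun E hE => mapDomain_eq_of_principal hpr hpl hgen hE) (Divisor.mem_degZero.1 Y.2)
  rw [reductionModL_mk h]
  rw [← hagree] at h0
  exact (QuotientAddGroup.eq_zero_iff _).2 h0

include hA hsm in
/-- A torsion class pulled back along `τ ↦ q τ` with both reductions powers is zero. -/
theorem eq_zero_of_pullback {p : ℕ} (hqp : ¬ q ∣ p) (N : (sheetAt hqM hA).Nodes)
    {ζ : Fin N.n → kk} {y : JZero (M * q)} (hy : InK N p y ζ) {a : JZero M} (ha : p • a = 0)
    (hya : pullPic M q (heckeBetaBar QA M q) a = y) : a = 0 := by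
  haveI := Specialization.instIsFunctionFieldX0Bar M
  haveI := Specialization.instIsFunctionFieldX0Bar (M * q)
  haveI : HasPrincipalDivisors QA (modularFunctionFieldBar (M * q)) := hasPrincipalDivisors
  have hp0 : p ≠ 0 := fun h => hqp (h ▸ dvd_zero q)
  obtain ⟨z, D, hD, hzD, -⟩ := hy
  obtain ⟨Da, rfl⟩ := Pic0.mk_surjective a
  obtain ⟨h, hh, hhD⟩ := AddSubgroup.mem_addSubgroupOf.1
    ((QuotientAddGroup.eq_zero_iff _).1 ((QuotientAddGroup.mk_nsmul _ Da p).trans ha))
  have hhv : ∀ v, v.ord h = (p : ℤ) * (Da : Divisor QA (X0Bar M)) v := fun v => by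
    rw [← hhD v, AddSubgroupClass.coe_nsmul, Finsupp.smul_apply, nsmul_eq_mul]
  obtain ⟨hmem, hmk⟩ := pullPic_mk (heckeBetaBar QA M q) Da
  obtain ⟨r, hr, hrv⟩ := AddSubgroup.mem_addSubgroupOf.1
    (QuotientAddGroup.eq_iff_sub_mem.1 (hD.trans (hya.symm.trans hmk)))
  have hord : ∀ w, w.ord ((heckeBetaBar QA M q) h) =
      (p : ℤ) * Divisor.pullbackAlong (heckeBetaBar QA M q) (Kronecker.isIntegralAlong (heckeBetaBar QA M q))
        (Da : Divisor QA (X0Bar M)) w := fun w => by
    have hpb : Divisor.pullbackAlong (heckeBetaBar QA M q) (Kronecker.isIntegralAlong (heckeBetaBar QA M q))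
        ((p : ℤ) • (Da : Divisor QA (X0Bar M))) w = w.ord ((heckeBetaBar QA M q) h) := by
      letI := algebraAlong (heckeBetaBar QA M q)
      haveI := isScalarTower_along (heckeBetaBar QA M q)
      haveI := isIntegral_along (heckeBetaBar QA M q) (Kronecker.isIntegralAlong (heckeBetaBar QA M q))
      exact Divisor.pullback_apply_eq_ord (fun v => by simp [hhv v]) w
    rw [← hpb, map_zsmul, Finsupp.smul_apply, smul_eq_mul]
  have hb : (heckeBetaBar QA M q) h ≠ 0 := (map_ne_zero _).2 hh
  obtain ⟨C, hC⟩ := eq_algebraMap_of_forall_ord_nonneg (K := QA)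
    (f := (heckeBetaBar QA M q) h * r ^ p / z.f) fun w => by
      rw [ord_div w (mul_ne_zero hb (pow_ne_zero _ hr)) z.f_ne, w.ord_mul hb (pow_ne_zero _ hr),
        ord_pow, hord, hzD, ← hrv w]
      rw [AddSubgroupClass.coe_sub, Finsupp.sub_apply]
      exact le_of_eq (by ring)
  obtain ⟨e, hb1, hhb, hres⟩ := (sheetAt hqM hA).MC.scaled h hh
  obtain ⟨e', rb, hrb, hr'⟩ := (sheetAt hqM hA).scaled₂ r hr
  have h1 := ((sheetAt hqM hA).β₂ _ _ hres).mul (hr'.pow p)
  rw [show (sheetAt hqM hA).β (e • h) = e • (heckeBetaBar QA M q) h from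
    (heckeBetaBar QA M q).toLinearMap.map_smul e h, _root_.smul_pow, smul_mul_smul_comm,
    show (heckeBetaBar QA M q) h * r ^ p = algebraMap QA _ C * z.f by
      rw [← hC, div_mul_cancel₀ _ z.f_ne], ← Algebra.smul_def, smul_smul] at h1
  have h2 := z.res.2
  rw [Prod.pow_snd] at h2
  obtain ⟨c, hc, hcg⟩ := res_scale_eq residue_surjective (pow_ne_zero p z.g₂_ne)
    (mul_ne_zero hhb (pow_ne_zero p hrb)) h2 h1
  have hdiv : Model.divMap hsm (Da : Divisor QA (X0Bar M)) = divOf kk (z.g.2 / rb) := by
    have h3 := Model.divMap_divOf hsm hres hhb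
    have h4 : divOf QA (e • h) = (p : ℤ) • (Da : Divisor QA (X0Bar M)) := Finsupp.ext fun v => by
      have he : e ≠ 0 := fun h0 => hres.ne_zero hhb (by rw [h0, zero_smul])
      rw [divOf_apply, Algebra.smul_def, v.ord_mul ((map_ne_zero _).2 he) hh, ord_algebraMap,
        zero_add, hhv, Finsupp.smul_apply, smul_eq_mul]
    rw [h4, map_zsmul] at h3
    refine Finsupp.ext fun P => mul_left_cancel₀ (Int.natCast_ne_zero.2 hp0) ?_
    have h5 := DFunLike.congr_fun h3 P
    rw [Finsupp.smul_apply, smul_eq_mul, divOf_apply] at h5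
    rw [h5, divOf_apply, ord_div P z.g₂_ne hrb, mul_sub, ← ord_pow, ← ord_pow, eq_sub_iff_add_eq,
      ← P.ord_mul hhb (pow_ne_zero _ hrb), hcg, P.ord_mul ((map_ne_zero _).2 hc)
        (pow_ne_zero _ z.g₂_ne), ord_algebraMap, zero_add]
  refine eq_zero_of_reductionModL_eq_zero hA
    (fun M' _ h1 h2 => GoodModel.goodLevel hA M' h1 h2) M hqM
    (reductionInputsModL hA (fun M' _ h1 h2 => GoodModel.goodLevel hA M' h1 h2) M hqM) p hqp _ ha
    (reduction_eq_zero_of_isPrincipal hqM hA hsm
      ⟨z.g.2 / rb, div_ne_zero z.g₂_ne hrb, fun P => by rw [hdiv, divOf_apply]⟩)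

end FLTAgent.Entry.Old
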