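import Fermat.Agent.Entry.Old.Norm
import Fermat.Agent.Entry.Old.Kummer
import Fermat.Agent.Entry.Old.Extension
import Fermat.Agent.Entry.Old.Reduction
import Fermat.Agent.Entry.Interface

/-!
# The classes from level `Mq` among the fixed classes of level `Mq²`

For `q ≡ -1` modulo `p` the difference of the pull back of a fixed class killed below and the other
pull back of its exchange is killed by both push forwards, and it determines the class: otherwise
the character of the class would extend to level `M` and its reduction would be trivial.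
-/

set_option autoImplicit false
set_option linter.style.haveILetI false
set_option linter.unusedSectionVars false
set_option synthInstance.maxHeartbeats 400000
set_option maxHeartbeats 1000000

noncomputable section

open AlgebraicCurve ModularCurve IsLocalRing CongruenceSubgroup

namespace FLTAgent.Entry.Old

open FLTAgent.Curves FLTAgent.Specialization FLTAgent.BadRed
open FLTAgent.Entry.Surj (InK)
open FLTAgent.Lowering.P7 (swapAut swapAut_smul_galois)
open FLTAgent.EigenLattice (pushPic GoodIdx evalGood evalGood_X opAct opAct_mul opAct_add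
  opAct_intCast opAct_heckeGen coe_heckeTors_frobenius)
open FLTAgent.TorsionHom (IsKummer heckeTors diagMat)
open FLTAgent.PeriodHecke (mat Hpar)

open scoped MatrixGroups

local notation "QA" => AlgebraicClosure ℚ
local notation "GG" => (AlgebraicClosure ℚ ≃ₐ[ℚ] AlgebraicClosure ℚ)

attribute [local instance 2000] Lowering.P7.fullCAlgebra Lowering.P7.laurentAlgebra
  Lowering.P7.x0BarAlgebra

section Compose

variable {K F F' : Type*} [Field K] [Field F] [Field F'] [Algebra K F] [Algebra K F']
  [IsAlgClosed K] [IsFunctionField K F] [IsFunctionField K F'] (φ ψ : F →ₐ[K] F')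
  (hφ : φ.toRingHom.IsIntegral) (hψ : ψ.toRingHom.IsIntegral) (g : SemilinearAut K F')
  (hg : ∀ x, ψ x = g • φ x)

include hg in
/-- Push forward along a map moved by an automorphism. -/
theorem pushforwardAlong_comp_smul (D : Divisor K F') :
    Divisor.pushforwardAlong ψ hψ (g • D) = Divisor.pushforwardAlong φ hφ D := by
  induction D using Finsupp.induction with
  | zero => rw [smul_zero, map_zero, map_zero]
  | single_add w n D _ _ ih =>
    rw [smul_add, map_add, map_add, ih, SemilinearAut.smul_single, add_left_inj]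
    have hone : ∀ (χ : F →ₐ[K] F') (hχ : χ.toRingHom.IsIntegral) (u : Place K F'),
        u.inertiaDegAlong χ hχ = 1 := by
      intro χ hχ u
      letI := algebraAlong χ
      haveI := isScalarTower_along χ
      haveI := isIntegral_along χ hχ
      have h := u.deg_restrict_mul_inertiaDeg (F := F)
      rw [deg_eq_one, deg_eq_one, one_mul] at h
      exact h
    rw [Divisor.pushforwardAlong_single, Divisor.pushforwardAlong_single, hone, hone]
    congr 1
    refine Place.ext ?_
    ext x
    show ψ x ∈ (g • w).toValuationSubring ↔ φ x ∈ w.toValuationSubring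
    rw [hg, SemilinearAut.smul_toValuationSubring, ValuationSubring.smul_mem_pointwise_smul_iff]

end Compose

variable {q M : ℕ} [Fact q.Prime] [NeZero q] [NeZero M] [NeZero (M * q)] [NeZero (M * q * q)]
  (hqM : ¬ q ∣ M)

/-- The old class. -/
def oldMap : JZero (M * q) →+ JZero (M * q * q) :=
  pullPic (M * q) q (heckeAlphaBar QA (M * q) q) -
    (pullPic (M * q) q (heckeBetaBar QA (M * q) q)).comp
      (DistribSMul.toAddMonoidHom (JZero (M * q)) (swapAut hqM))

theorem oldMap_apply (y : JZero (M * q)) : oldMap hqM y =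
    pullPic (M * q) q (heckeAlphaBar QA (M * q) q) y -
      pullPic (M * q) q (heckeBetaBar QA (M * q) q) (swapAut hqM • y) := rfl

theorem nsmul_swap {n : ℕ} {y : JZero (M * q)} (hy : n • y = 0) :
    n • (swapAut hqM • y) = 0 :=
  (map_nsmul (DistribSMul.toAddMonoidHom (JZero (M * q)) (swapAut hqM)) n y).symm.trans
    ((congrArg (DistribSMul.toAddMonoidHom (JZero (M * q)) (swapAut hqM)) hy).trans (map_zero _))

theorem oldMap_smul (σ : GG) (y : JZero (M * q)) : oldMap hqM (σ • y) = σ • oldMap hqM y := by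
  rw [oldMap_apply, oldMap_apply, smul_sub,
    pullPic_smul _ σ (fun z => EigenLattice.alpha_compat (M * q) q σ z), swapAut_smul_galois,
    pullPic_smul _ σ (fun z => EigenLattice.beta_compat (M * q) q σ z)]

section Hecke

variable (p : ℕ) [NeZero p] (κ : QA →+* ℂ)

/-- The old class on torsion. -/
def oldTors (y : Pic0.torsion QA (modularFunctionFieldBar (M * q)) p) :
    Pic0.torsion QA (modularFunctionFieldBar (M * q * q)) p :=
  ⟨oldMap hqM (y : JZero (M * q)), Pic0.mem_torsion.2
    (by rw [← map_zsmul, Pic0.mem_torsion.1 y.2, map_zero])⟩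

theorem oldTors_heckeTors (r : Nat.Primes) (hr : ¬ (r : ℕ) ∣ M * q * q) (hrp : ¬ (r : ℕ) ∣ p)
    (y : Pic0.torsion QA (modularFunctionFieldBar (M * q)) p) :
    oldTors hqM p (heckeTors p r y) = heckeTors p r (oldTors hqM p y) := by
  obtain ⟨V, hV⟩ := Frobenius.exists_liesOverPrime (r : ℕ) r.2
  obtain ⟨σ, hσ⟩ := Frobenius.exists_isFrobeniusAt V (r : ℕ) r.2 hV
  refine Subtype.ext ?_
  rw [coe_heckeTors_frobenius p r hr hrp hV hσ]
  show oldMap hqM (heckeTors p r y : JZero (M * q)) = _
  rw [coe_heckeTors_frobenius p r (fun h => hr (h.trans (dvd_mul_right (M * q) q))) hrp hV hσ,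
    map_add, map_nsmul, oldMap_smul, oldMap_smul]
  rfl

theorem oldTors_opAct (avoid : Finset ℕ) (hp : ∀ r : ℕ, r.Prime → r ∣ p → r ∈ avoid)
    (P : MvPolynomial (GoodIdx (M * q * q) avoid) ℤ)
    (y : Pic0.torsion QA (modularFunctionFieldBar (M * q)) p) :
    oldTors hqM p (opAct κ p (evalGood (M * q * q) avoid (M * q) P) y) =
      opAct κ p (evalGood (M * q * q) avoid (M * q * q) P) (oldTors hqM p y) := by
  induction P using MvPolynomial.induction_on generalizing y with
  | C a =>
    rw [eq_intCast MvPolynomial.C a, map_intCast, map_intCast, opAct_intCast, opAct_intCast]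
    exact Subtype.ext (map_zsmul (oldMap hqM) _ _)
  | add P Q hP hQ =>
    rw [map_add, map_add, opAct_add, opAct_add, ← hP, ← hQ]
    exact Subtype.ext (map_add (oldMap hqM) _ _)
  | mul_X P r hP =>
    rw [map_mul, map_mul, evalGood_X, evalGood_X, opAct_mul, opAct_mul, opAct_heckeGen,
      opAct_heckeGen]
    exact (oldTors_heckeTors hqM p r.1 r.2.1 (fun h => r.2.2 (hp _ r.1.2 h)) _).trans
      (congrArg _ (hP y))

end Hecke

variable {p : ℕ} [Fact p.Prime] (hp2 : p ≠ 2) (hpq : p ∣ q + 1)

theorem nsmul_q {G : Type*} [AddCommGroup G] (hpq : p ∣ q + 1) {x : G} (hx : p • x = 0) :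
    q • x = -x := by
  obtain ⟨c, hc⟩ := hpq
  rw [eq_neg_iff_add_eq_zero, ← succ_nsmul, hc, mul_comm, mul_nsmul', hx, nsmul_zero]

include hpq in
/-- The old class is killed by both push forwards. -/
theorem push_oldMap {y : JZero (M * q)} (hy : p • y = 0)
    (hα : pushPic M q (heckeAlphaBar QA M q) y = 0) (hβ : pushPic M q (heckeBetaBar QA M q) y = 0) :
    pushPic (M * q) q (heckeAlphaBar QA (M * q) q) (oldMap hqM y) = 0 ∧
      pushPic (M * q) q (heckeBetaBar QA (M * q) q) (oldMap hqM y) = 0 := by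
  have hp0 : p ≠ 0 := (Fact.out : p.Prime).ne_zero
  have hW : p • (swapAut hqM • y) = 0 := nsmul_swap hqM hy
  obtain ⟨h1, h2⟩ := push_pull_eq_neg hqM hp0 hy hα hβ
  have hsw : ∀ (a b : modularFunctionFieldBar M →ₐ[QA] modularFunctionFieldBar (M * q)),
      (∀ z, swapEnd hqM (a z) = b z) → pushPic M q a y = 0 →
        pushPic M q b (swapAut hqM • y) = 0 := fun a b hab h0 => by
    haveI := Specialization.instIsFunctionFieldX0Bar M
    haveI := Specialization.instIsFunctionFieldX0Bar (M * q)
    obtain ⟨D, rfl⟩ := Pic0.mk_surjective y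
    obtain ⟨h, he⟩ := EigenLattice.pushPic_mk M q a D
    obtain ⟨h', he'⟩ := EigenLattice.pushPic_mk M q b
      (SemilinearAut.degZeroSMulHom (swapAut hqM) D)
    rw [SemilinearAut.pic0_smul_mk, he', ← h0, he]
    refine congrArg Pic0.mk (Subtype.ext ?_)
    show Divisor.pushforwardAlong b _ _ = Divisor.pushforwardAlong a _ _
    rw [SemilinearAut.coe_degZeroSMulHom]
    exact pushforwardAlong_comp_smul a b _ _ _
      (fun z => by rw [Lowering.P7.swapAut_smul]; exact (hab z).symm) _
  obtain ⟨h3, h4⟩ := push_pull_eq_neg hqM hp0 hW (hsw _ _ (swapEnd_beta hqM) hβ)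
    (hsw _ _ (swapEnd_alpha hqM) hα)
  rw [swapAut_smul_self] at h3
  refine ⟨?_, ?_⟩
  · rw [oldMap_apply, map_sub, pushPic_pullPic_self, finrankAlong_alpha_dvd (M * q) q
      (dvd_mul_left q M), h3, nsmul_q hpq hy, sub_self]
  · rw [oldMap_apply, map_sub, pushPic_pullPic_self, finrankAlong_beta_dvd hqM, h2,
      nsmul_q hpq hW, sub_self]

variable {A : ValuationSubring QA} [IsAlgClosed (ResidueField A)] [CharP (ResidueField A) q]
  [Curves.IsFunctionField (ResidueField A) (modularFunctionFieldFullC (ResidueField A) M)]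
  (hA : A.LiesOverPrime q)
  (hsm : (modularModel (π := residue A) residue_surjective M
    (BadRed.natCast_ne_zero hqM (ResidueField A))).Smooth)

local notation "kk" => ResidueField A

include hp2 hpq hA hsm in
/-- The old class determines the class. -/
theorem eq_zero_of_oldMap (hl : p = 3 → ∃ l : ℕ, l.Prime ∧ l ∣ M ∧ l % 3 = 2)
    (N : (sheetAt hqM hA).Nodes) {ζ : Fin N.n → kk} {y : JZero (M * q)} (hy : InK N p y ζ)
    (h : oldMap hqM y = 0) : y = 0 := by
  have hp := (Fact.out : p.Prime)
  set κ := Kronecker.complexEmb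
  have hpy : p • y = 0 := hy.nsmul_eq_zero
  have hpW : p • (swapAut hqM • y) = 0 := nsmul_swap hqM hpy
  obtain ⟨χ, hχ, hnχ, hk⟩ := TorsionHom.exists_isKummer (κ := κ) hp.ne_zero (c := y)
    (Pic0.mem_torsion.2 (by rw [natCast_zsmul]; exact hpy))
  obtain ⟨χ₁, hχ₁, hnχ₁, hk₁⟩ := TorsionHom.exists_isKummer (κ := κ) hp.ne_zero
    (c := swapAut hqM • y) (Pic0.mem_torsion.2 (by rw [natCast_zsmul]; exact hpW))
  have h1 := isKummer_pull_alpha (l := q) hp.ne_zero hk
  have h2 := isKummer_pull_beta (l := q) hp.ne_zero hk₁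
  rw [oldMap_apply, sub_eq_zero] at h
  rw [h] at h1
  have e := h1.unique hp.ne_zero h2
  obtain ⟨ψ, hpψ, hψ⟩ := exists_extension hqM hp2 hpq hl ⟨χ, hχ⟩ ⟨χ₁, hχ₁⟩ (Subtype.ext hnχ)
    (Subtype.ext hnχ₁) fun g d hgd => by
      have hmem : (g : SL(2, ℤ)) ∈ Gamma0 (M * q * q) :=
        Gamma0_mem.2 ((ZMod.intCast_zmod_eq_zero_iff_dvd _ _).2 (TorsionHom.dvd_of_conj (M * q) q hgd))
      have e1 := DFunLike.congr_fun e (Additive.ofMul (⟨g, hmem⟩ : Gamma0 (M * q * q)))
      have e2 : conjDown (M * q) q ⟨g, hmem⟩ = d := conjDown_eq hgd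
      rw [← e2]
      exact e1
  obtain ⟨a, ha, hka⟩ := TorsionHom.exists_class (κ := κ) hp.ne_zero ψ.2 (congrArg Subtype.val hpψ)
  have h3 := isKummer_pull_alpha (l := q) hp.ne_zero hka
  have e3 : ψ.1.comp (LevelRaise.incl (dvd_mul_right M q)).toAdditive = χ₁ :=
    AddMonoidHom.ext fun g => hψ g.toMul _ rfl
  rw [e3] at h3
  have hWa : swapAut hqM • y = pullPic M q (heckeAlphaBar QA M q) a := by
    haveI : NeZero p := ⟨hp.ne_zero⟩
    have hm₁ : swapAut hqM • y ∈ Pic0.torsion QA (modularFunctionFieldBar (M * q)) p :=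
      Pic0.mem_torsion.2 (by rw [natCast_zsmul]; exact hpW)
    have hm₂ : pullPic M q (heckeAlphaBar QA M q) a ∈
        Pic0.torsion QA (modularFunctionFieldBar (M * q)) p :=
      Pic0.mem_torsion.2 (by rw [← map_zsmul, Pic0.mem_torsion.1 ha, map_zero])
    exact congrArg Subtype.val (TorsionHom.kummer_injective κ p
      (Subtype.ext ((TorsionHom.kummer_eq κ p (c := ⟨_, hm₁⟩) hk₁).trans
        (TorsionHom.kummer_eq κ p (c := ⟨_, hm₂⟩) h3).symm)))
  have hya : pullPic M q (heckeBetaBar QA M q) a = y := by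
    rw [pullPic_beta hqM, ← hWa, swapAut_smul_self]
  have ha0 := eq_zero_of_pullback hqM hA hsm (fun h => hp2 (by
    have hqp := (Nat.prime_dvd_prime_iff_eq Fact.out hp).1 h
    subst hqp
    exact absurd ((Nat.dvd_add_right dvd_rfl).1 hpq) hp.not_dvd_one)) N hy
    (by rw [← natCast_zsmul]; exact Pic0.mem_torsion.1 ha) hya
  rw [← hya, ha0, map_zero]

end FLTAgent.Entry.Old
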