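import Fermat.Agent.Entry.Assembly.Pull
import Fermat.Agent.BadRed.Torsion
import Fermat.Agent.Carayol.FibNorm
import Fermat.Agent.TorsionHom.HeckeCompat
import Fermat.Agent.Lowering.P7.Shortcuts

/-!
# Norms between levels `Mq` and `Mq²`

The field of level `Mq²` is generated by the two images of level `Mq` over level `M`, so the norm
along one of them of the other image, times the exchange, comes from level `M`. On classes killed by
the push forwards to level `M` both correspondences at `q` are minus the exchange.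
-/

set_option autoImplicit false
set_option linter.style.haveILetI false
set_option linter.unusedSectionVars false
set_option synthInstance.maxHeartbeats 400000
set_option maxHeartbeats 1000000

noncomputable section

open AlgebraicCurve ModularCurve

namespace FLTAgent.Entry.Old

open FLTAgent.Curves FLTAgent.Specialization FLTAgent.BadRed
open FLTAgent.EigenLattice (pushPic isPrincipal_of_pushPic_eq_zero)
open FLTAgent.Lowering.P7 (swapAut swapAut_smul)

local notation "QA" => AlgebraicClosure ℚ

section General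

variable {K F₀ F F₂ : Type*} [Field K] [Field F₀] [Field F] [Field F₂] [Algebra K F₀] [Algebra K F]
  [Algebra K F₂] [CharZero F₀] [CharZero F]

/-- The statement seen in an algebraically closed field. -/
theorem norm_mul_exchange_aux {L : Type*} [Field L] [IsAlgClosed L] (ι : F₂ →+* L) (a b : F₀ →ₐ[K] F) (φ ψ : F →ₐ[K] F₂) (w : F →+* F)
    (hwa : ∀ z, w (a z) = b z) (hcomp : ∀ z, φ (b z) = ψ (a z))
    (hgen : ∀ L : Subfield F₂, (∀ z, φ z ∈ L) → (∀ z, ψ z ∈ L) → L = ⊤)
    (hfa : FiniteAlong K a) (hfφ : FiniteAlong K φ) (hd : 1 < finrankAlong K φ)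
    (hdeg : finrankAlong K a = finrankAlong K φ + 1) (z : F) :
    (letI := algebraAlong φ; Algebra.norm F (ψ z)) * w z =
      b (letI := algebraAlong a; Algebra.norm F₀ z) := by
  classical
  letI := algebraAlong φ
  haveI : Module.Finite F F₂ := hfφ
  letI : Algebra F L := (ι.comp φ.toRingHom).toAlgebra
  let up : F →+* L := algebraMap F L
  let σ : Option (F₂ →ₐ[F] L) → F →+* L := fun i =>
    i.elim (up.comp w) fun e => e.toRingHom.comp ψ.toRingHom
  have hσ : ∀ i, (σ i).comp a.toRingHom = up.comp b.toRingHom := by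
    intro i
    refine RingHom.ext fun x => ?_
    cases i with
    | none => exact congrArg up (hwa x)
    | some e => exact (congrArg e (hcomp x).symm).trans (e.commutes (b x))
  have hinj : Function.Injective σ := by
    have hsome : ∀ e e' : F₂ →ₐ[F] L, (∀ x, e (ψ x) = e' (ψ x)) → e = e' := fun e e' h => by
      have := hgen (RingHom.eqLocusField e.toRingHom e'.toRingHom)
        (fun x => (e.commutes x).trans (e'.commutes x).symm) h
      exact AlgHom.ext fun u => (this ▸ Subfield.mem_top u : u ∈ RingHom.eqLocusField e.toRingHom _)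
    have hnone : ∀ e : F₂ →ₐ[F] L, ¬ ∀ x, e (ψ x) = up (w x) := fun e h => by
      have htop := hgen (up.fieldRange.comap e.toRingHom) (fun x => ⟨x, (e.commutes x).symm⟩)
        (fun x => ⟨w x, (h x).symm⟩)
      have hsur : Function.Surjective (algebraMap F F₂) := fun u => by
        obtain ⟨x, hx⟩ := (htop ▸ Subfield.mem_top u : u ∈ up.fieldRange.comap e.toRingHom)
        exact ⟨x, e.toRingHom.injective ((e.commutes x).trans hx)⟩
      have h1 : finrankAlong K φ = 1 :=
        (LinearEquiv.ofBijective (Algebra.linearMap F F₂)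
          ⟨(algebraMap F F₂).injective, hsur⟩).finrank_eq.symm.trans (Module.finrank_self F)
      omega
    rintro (_ | e) (_ | e') h
    · rfl
    · exact (hnone e' fun x => (RingHom.congr_fun h x).symm).elim
    · exact (hnone e fun x => RingHom.congr_fun h x).elim
    · exact congrArg some (hsome e e' fun x => RingHom.congr_fun h x)
  have hcard : Fintype.card (Option (F₂ →ₐ[F] L)) = finrankAlong K a := by
    rw [Fintype.card_option, AlgHom.card, hdeg]
    rfl
  have h1 : up (b (letI := algebraAlong a; Algebra.norm F₀ z)) = ∏ i, σ i z := by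
    letI := algebraAlong a
    haveI : FiniteDimensional F₀ F := hfa
    exact TorsionHom.norm_eq_prod (up.comp b.toRingHom) σ hσ hinj hcard z
  have h2 : up (Algebra.norm F (ψ z)) = ∏ e : F₂ →ₐ[F] L, e (ψ z) :=
    Algebra.norm_eq_prod_embeddings F L (ψ z)
  rw [Fintype.prod_option] at h1
  apply up.injective
  rw [map_mul, h2, h1]
  exact mul_comm _ _

/-- The norm of one image along the other, times the exchange, comes from the bottom. -/
theorem norm_mul_exchange (a b : F₀ →ₐ[K] F) (φ ψ : F →ₐ[K] F₂) (w : F →+* F)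
    (hwa : ∀ z, w (a z) = b z) (hcomp : ∀ z, φ (b z) = ψ (a z))
    (hgen : ∀ L : Subfield F₂, (∀ z, φ z ∈ L) → (∀ z, ψ z ∈ L) → L = ⊤)
    (hfa : FiniteAlong K a) (hfφ : FiniteAlong K φ) (hd : 1 < finrankAlong K φ)
    (hdeg : finrankAlong K a = finrankAlong K φ + 1) (z : F) :
    (letI := algebraAlong φ; Algebra.norm F (ψ z)) * w z =
      b (letI := algebraAlong a; Algebra.norm F₀ z) :=
  norm_mul_exchange_aux (algebraMap F₂ (AlgebraicClosure F₂)) a b φ ψ w hwa hcomp hgen hfa hfφ hd
    hdeg z

/-- Degrees multiply. -/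
theorem finrankAlong_mul (b : F₀ →ₐ[K] F) (φ : F →ₐ[K] F₂) :
    finrankAlong K b * finrankAlong K φ = finrankAlong K (φ.comp b) := by
  letI := algebraAlong b
  letI := algebraAlong φ
  letI := algebraAlong (φ.comp b)
  haveI : IsScalarTower F₀ F F₂ := IsScalarTower.of_algebraMap_eq fun _ => rfl
  exact Module.finrank_mul_finrank F₀ F F₂

end General

/-! ### The two levels -/

section Levels

variable (N q : ℕ) [NeZero N] [Fact q.Prime] [NeZero q] [NeZero (N * q)]

/-- The two images generate. -/
theorem eq_top_of_images (L : Subfield (modularFunctionFieldBar (N * q)))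
    (h1 : ∀ z, heckeAlphaBar QA N q z ∈ L) (h2 : ∀ z, heckeBetaBar QA N q z ∈ L) : L = ⊤ := by
  letI := algebraAlong (heckeAlphaBar QA N q)
  let L' : IntermediateField (modularFunctionFieldBar N) (modularFunctionFieldBar (N * q)) :=
    L.toIntermediateField h1
  have h := Carayol.eq_top_of_gens L'
    (fun c => (AlgHom.commutes (heckeAlphaBar QA N q) c) ▸ h1 _)
    ((show Kronecker.jEl (N * q) = heckeAlphaBar QA N q (Kronecker.jEl N) from
      Subtype.ext (by rw [coe_heckeAlphaBar]; rfl)) ▸ h1 _)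
    ((jNEl_eq_beta N q) ▸ h2 _)
  exact eq_top_iff.2 fun u _ => (h ▸ IntermediateField.mem_top : u ∈ L')

/-- The degree of forgetting one more factor `q`. -/
theorem finrankAlong_alpha_dvd (hqN : q ∣ N) : finrankAlong QA (heckeAlphaBar QA N q) = q := by
  open IntermediateField in
  set φ := heckeAlphaBar QA N q
  have hφj : φ (Kronecker.jEl N) = Kronecker.jEl (N * q) := Subtype.ext (by rw [coe_heckeAlphaBar]; rfl)
  let e : QA⟮Kronecker.jEl N⟯ ≃+* QA⟮Kronecker.jEl (N * q)⟯ :=
    ((QA⟮Kronecker.jEl N⟯).equivMap φ).toRingEquiv.trans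
      (IntermediateField.equivOfEq (show (QA⟮Kronecker.jEl N⟯).map φ = QA⟮Kronecker.jEl (N * q)⟯ by
        rw [IntermediateField.adjoin_map, Set.image_singleton, hφj])).toRingEquiv
  letI := algebraAlong φ
  letI algJ : Algebra QA⟮Kronecker.jEl N⟯ (modularFunctionFieldBar (N * q)) :=
    ((algebraMap (modularFunctionFieldBar N) (modularFunctionFieldBar (N * q))).comp
      (algebraMap QA⟮Kronecker.jEl N⟯ (modularFunctionFieldBar N))).toAlgebra
  haveI : IsScalarTower QA⟮Kronecker.jEl N⟯ (modularFunctionFieldBar N) (modularFunctionFieldBar (N * q)) :=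
    IsScalarTower.of_algebraMap_eq fun _ => rfl
  have hcomm : (algebraMap QA⟮Kronecker.jEl (N * q)⟯ (modularFunctionFieldBar (N * q))).comp e.toRingHom =
      (RingEquiv.refl (modularFunctionFieldBar (N * q))).toRingHom.comp
        (algebraMap QA⟮Kronecker.jEl N⟯ (modularFunctionFieldBar (N * q))) := RingHom.ext fun _ => rfl
  have hbig : Module.finrank QA⟮Kronecker.jEl N⟯ (modularFunctionFieldBar (N * q)) = dedekindPsi (N * q) :=
    (Algebra.finrank_eq_of_equiv_equiv e (RingEquiv.refl _) hcomm).trans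
      (Kronecker.finrank_adjoin_jEl (N * q))
  have hpos : 0 < dedekindPsi N := by
    rw [← Kronecker.finrank_adjoin_jEl]
    haveI := Kronecker.finiteDimensional_adjoin_jEl N
    exact Module.finrank_pos
  have h := Module.finrank_mul_finrank QA⟮Kronecker.jEl N⟯ (modularFunctionFieldBar N)
    (modularFunctionFieldBar (N * q))
  rw [Kronecker.finrank_adjoin_jEl, hbig, ModEq.dedekindPsi_mul_prime_of_dvd Fact.out hqN,
    mul_comm q] at h
  exact Nat.eq_of_mul_eq_mul_left hpos h

end Levels

section Square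

variable {q M : ℕ} [Fact q.Prime] [NeZero q] [NeZero M] [NeZero (M * q)] [NeZero (M * q * q)]
  (hqM : ¬ q ∣ M)

local notation "α₁" => heckeAlphaBar QA M q
local notation "β₁" => heckeBetaBar QA M q
local notation "α₂" => heckeAlphaBar QA (M * q) q
local notation "β₂" => heckeBetaBar QA (M * q) q

theorem alpha_beta_comm (z : modularFunctionFieldBar M) : α₂ (β₁ z) = β₂ (α₁ z) :=
  Subtype.ext (by rw [coe_heckeAlphaBar, coe_heckeBetaBar, coe_heckeBetaBar, coe_heckeAlphaBar])

include hqM in
theorem finrankAlong_beta_dvd : finrankAlong QA β₂ = q := by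
  have h1 := finrankAlong_mul β₁ α₂
  have h2 := finrankAlong_mul α₁ β₂
  have e : AlgHom.comp β₂ α₁ = AlgHom.comp α₂ β₁ := AlgHom.ext fun z =>
    (AlgHom.comp_apply β₂ α₁ z).trans ((alpha_beta_comm z).symm.trans (AlgHom.comp_apply α₂ β₁ z).symm)
  have h3 : finrankAlong QA α₁ * finrankAlong QA β₂ = finrankAlong QA β₁ * finrankAlong QA α₂ :=
    h2.trans ((congrArg (finrankAlong QA) e).trans h1.symm)
  rw [finrankAlong_beta hqM, (Kronecker.finrankAlong_alpha M q hqM).2,
    finrankAlong_alpha_dvd (M * q) q (dvd_mul_left q M)] at h3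
  exact Nat.eq_of_mul_eq_mul_left (Nat.succ_pos q) h3

/-- The correspondence through level `Mq²` on a class killed below is minus the exchange. -/
theorem pushPic_pullPic_eq_neg (a b : modularFunctionFieldBar M →ₐ[QA] modularFunctionFieldBar (M * q))
    (φ ψ : modularFunctionFieldBar (M * q) →ₐ[QA] modularFunctionFieldBar (M * q * q))
    (hwa : ∀ z, swapEnd hqM (a z) = b z) (hcomp : ∀ z, φ (b z) = ψ (a z))
    (hgen : ∀ L : Subfield (modularFunctionFieldBar (M * q * q)),
      (∀ z, φ z ∈ L) → (∀ z, ψ z ∈ L) → L = ⊤)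
    (hda : finrankAlong QA a = q + 1) (hdφ : finrankAlong QA φ = q)
    {n : ℕ} (hn : n ≠ 0) {y : JZero (M * q)} (hny : n • y = 0) (hy : pushPic M q a y = 0) :
    pushPic (M * q) q φ (pullPic (M * q) q ψ y) = -(swapAut hqM • y) := by
  haveI := Specialization.instIsFunctionFieldX0Bar M
  haveI := Specialization.instIsFunctionFieldX0Bar (M * q)
  haveI : HasPrincipalDivisors QA (modularFunctionFieldBar (M * q * q)) := hasPrincipalDivisors
  obtain ⟨D, rfl⟩ := Pic0.mk_surjective y
  obtain ⟨f, hf, hfD⟩ := AddSubgroup.mem_addSubgroupOf.1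
    ((QuotientAddGroup.eq_zero_iff _).1 ((QuotientAddGroup.mk_nsmul _ D n).trans hny))
  have hD : ∀ v, v.ord f = (n : ℤ) * (D : Divisor QA (X0Bar (M * q))) v := fun v => by
    rw [← hfD v, AddSubgroupClass.coe_nsmul, Finsupp.smul_apply, nsmul_eq_mul]
  have hfin : FiniteAlong QA a := Kronecker.finiteAlong _
  obtain ⟨c, r, hc, hr, hnr⟩ := Sheet.exists_norm_eq (Kronecker.isIntegralAlong _) hfin
    (Kronecker.normFormulaAlong _ hfin) hf hD (isPrincipal_of_pushPic_eq_zero M q a D hy)
  have hfφ : FiniteAlong QA φ := Kronecker.finiteAlong _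
  have key := norm_mul_exchange a b φ ψ (swapEnd hqM).toRingHom hwa hcomp hgen hfin hfφ
    (by rw [hdφ]; exact (Fact.out : q.Prime).one_lt) (by rw [hda, hdφ]) f
  set U := (letI := algebraAlong φ; Algebra.norm (modularFunctionFieldBar (M * q)) (ψ f))
  have hU0 : U ≠ 0 := TorsionHom.norm_along_ne_zero φ hfφ ((map_ne_zero _).2 hf)
  obtain ⟨hmem, hmk⟩ := pushPic_pullPic_mk ψ φ D
  rw [hmk, SemilinearAut.pic0_smul_mk, eq_neg_iff_add_eq_zero]
  refine (QuotientAddGroup.mk_add _ _ _).symm.trans ((QuotientAddGroup.eq_zero_iff _).2 (AddSubgroup.mem_addSubgroupOf.2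
    ⟨b r, (map_ne_zero _).2 hr, fun v => mul_left_cancel₀ (Int.natCast_ne_zero.2 hn) ?_⟩))
  have hw : v.ord (swapEnd hqM f) =
      (n : ℤ) * (swapAut hqM • (D : Divisor QA (X0Bar (M * q)))) v := by
    rw [SemilinearAut.divisor_smul_apply, ← hD, ← swapAut_smul hqM]
    conv_lhs => rw [← smul_inv_smul (swapAut hqM) v]
    rw [SemilinearAut.ord_smul]
  have hN := congrArg v.ord key
  rw [v.ord_mul hU0 ((map_ne_zero _).2 hf), show (swapEnd hqM).toRingHom f = swapEnd hqM f from rfl,
    hw, hnr, Algebra.smul_def, map_mul, AlgHom.commutes, v.ord_mul ((map_ne_zero _).2 hc)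
      ((map_ne_zero _).2 (pow_ne_zero _ hr)), ord_algebraMap, zero_add, map_pow, ord_pow,
    ← TorsionHom.ord_norm_pullback ψ φ (Kronecker.isIntegralAlong _) (Kronecker.isIntegralAlong _)
      hfφ (Kronecker.normFormulaAlong _ hfφ) hf (fun v => (hD v).symm) v] at hN
  rw [AddSubgroup.coe_add, Finsupp.add_apply, SemilinearAut.coe_degZeroSMulHom, mul_add]
  exact hN

include hqM in
/-- The two cases. -/
theorem push_pull_eq_neg {n : ℕ} (hn : n ≠ 0) {y : JZero (M * q)} (hny : n • y = 0)
    (hα : pushPic M q α₁ y = 0) (hβ : pushPic M q β₁ y = 0) :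
    pushPic (M * q) q α₂ (pullPic (M * q) q β₂ y) = -(swapAut hqM • y) ∧
      pushPic (M * q) q β₂ (pullPic (M * q) q α₂ y) = -(swapAut hqM • y) :=
  ⟨pushPic_pullPic_eq_neg hqM α₁ β₁ α₂ β₂ (swapEnd_alpha hqM) alpha_beta_comm
    (eq_top_of_images (M * q) q) (Kronecker.finrankAlong_alpha M q hqM).2
    (finrankAlong_alpha_dvd (M * q) q (dvd_mul_left q M)) hn hny hα,
  pushPic_pullPic_eq_neg hqM β₁ α₁ β₂ α₂ (swapEnd_beta hqM) (fun z => (alpha_beta_comm z).symm)
    (fun L h1 h2 => eq_top_of_images (M * q) q L h2 h1) (finrankAlong_beta hqM)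
    (finrankAlong_beta_dvd hqM) hn hny hβ⟩

end Square

end FLTAgent.Entry.Old
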