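import Fermat.Agent.Entry.Old.Main

/-!
# As many fixed classes as node functions up to constants come from level `Mq`
-/

set_option autoImplicit false
set_option linter.style.haveILetI false
set_option linter.unusedSectionVars false
set_option synthInstance.maxHeartbeats 400000
set_option maxHeartbeats 1000000

noncomputable section

open AlgebraicCurve ModularCurve IsLocalRing

namespace FLTAgent.Entry

open FLTAgent.Curves FLTAgent.Specialization FLTAgent.BadRed
open FLTAgent.Entry.Surj (InK)
open FLTAgent.Entry.Old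
open FLTAgent.EigenLattice (pushPic evalGood opAct opAct_intCast)

local notation "QA" => AlgebraicClosure ℚ

attribute [local instance 2000] Lowering.P7.fullCAlgebra Lowering.P7.laurentAlgebra
  Lowering.P7.x0BarAlgebra

/-- **The old classes.** -/
theorem targetOldImage : TargetOldImage := by
  intro q M p _ _ _ _ _ _ _ hqM hp2 hpq hl A _ _ _ hA hsm N κ avoid havoid
  classical
  have hp : p.Prime := Fact.out
  have hS : (sheetAt hqM hA).Good := Lowering.P7.good hqM hA hsm
  have hqp' : p ≠ q := fun h => by
    subst h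
    exact hp.not_dvd_one ((Nat.dvd_add_right dvd_rfl).1 hpq)
  have hpk : (p : ResidueField A) ≠ 0 := fun h =>
    hqp' ((Nat.prime_dvd_prime_iff_eq Fact.out hp).1
      ((CharP.cast_eq_zero_iff (ResidueField A) q p).1 h)).symm
  -- the node classes
  let W₀ : AddSubgroup (JZero (M * q)) :=
    { carrier := {y | (∃ ζ, InK N p y ζ) ∧ (∀ τ ∈ A.inertiaSubgroupIn ℚ, τ • y = y) ∧
        pushPic M q (heckeAlphaBar QA M q) y = 0 ∧ pushPic M q (heckeBetaBar QA M q) y = 0}
      zero_mem' := ⟨⟨1, InK.zero hS hpk⟩, fun τ _ => EigenReps.galois_smul_zero (M * q) τ,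
        map_zero _, map_zero _⟩
      add_mem' := fun {a b} ha hb => ⟨⟨_, ha.1.choose_spec.mul hS hb.1.choose_spec⟩,
        fun τ hτ => by rw [smul_add, ha.2.1 τ hτ, hb.2.1 τ hτ],
        by rw [map_add, ha.2.2.1, hb.2.2.1, add_zero], by rw [map_add, ha.2.2.2, hb.2.2.2, add_zero]⟩
      neg_mem' := fun {a} ha => ⟨⟨_, by
          have h := ha.1.choose_spec.nsmul hS (p - 1)
          rwa [show (p - 1) • a = -a by
            rw [eq_neg_iff_add_eq_zero, ← succ_nsmul, Nat.sub_add_cancel hp.one_le]
            exact ha.1.choose_spec.nsmul_eq_zero] at h⟩,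
        fun τ hτ => by rw [smul_neg, ha.2.1 τ hτ],
        by rw [map_neg, ha.2.2.1, neg_zero], by rw [map_neg, ha.2.2.2, neg_zero]⟩ }
  have hW : ∀ y ∈ W₀, p • y = 0 := fun y hy => hy.1.choose_spec.nsmul_eq_zero
  let zW : W₀ →+ JZero (M * q * q) := (oldMap hqM).comp W₀.subtype
  have hinj : Function.Injective zW := (injective_iff_map_eq_zero _).2 fun y hy =>
    Subtype.ext (eq_zero_of_oldMap hqM hp2 hpq hA hsm hl N y.2.1.choose_spec hy)
  refine ⟨zW.range, ?_, ?_, ?_⟩
  · rintro _ ⟨y, rfl⟩
    obtain ⟨-, hfix, hα, hβ⟩ := y.2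
    have hpy := hW _ y.2
    obtain ⟨h1, h2⟩ := push_oldMap hqM hpq hpy hα hβ
    refine mem_Xfix.2 ⟨?_, fun τ hτ => ?_, h1, h2⟩
    · show p • oldMap hqM (y : JZero (M * q)) = 0
      rw [← map_nsmul, hpy, map_zero]
    · show τ • oldMap hqM (y : JZero (M * q)) = oldMap hqM (y : JZero (M * q))
      rw [← oldMap_smul, hfix τ hτ]
  · rw [show Nat.card zW.range = Nat.card W₀ from
      (Nat.card_congr (AddMonoidHom.ofInjective hinj).toEquiv).symm]
    rcases isEmpty_or_nonempty (Fin N.n) with he | hne
    · rw [show N.n - 1 = 0 by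
        have : N.n = 0 := by rw [← Fintype.card_fin N.n]; exact Fintype.card_eq_zero
        omega, pow_zero]
      haveI : Finite W₀ := by
        haveI := EigenReps.finite_torsion (M * q) p
        exact Finite.of_injective (fun y : W₀ => (⟨(y : JZero (M * q)), Pic0.mem_torsion.2 (by
          rw [natCast_zsmul]; exact hW _ y.2)⟩ : Pic0.torsion QA (modularFunctionFieldBar (M * q)) p))
          fun a b h => Subtype.ext (congrArg Subtype.val h :)
      exact Nat.one_le_iff_ne_zero.2 Nat.card_pos.ne'
    obtain ⟨i₀⟩ := hne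
    haveI : NeZero (p : ResidueField A) := ⟨hpk⟩
    have hμ : Nat.card (rootsOfUnity p (ResidueField A)) = p :=
      HasEnoughRootsOfUnity.natCard_rootsOfUnity _ p
    let T := {i : Fin N.n // i ≠ i₀} → rootsOfUnity p (ResidueField A)
    let ext : T → Fin N.n → ResidueField A := fun t i =>
      if h : i = i₀ then 1 else ((t ⟨i, h⟩ : (ResidueField A)ˣ) : ResidueField A)
    have hext : ∀ t i, ext t i ^ p = 1 := fun t i => by
      by_cases h : i = i₀
      · simp [ext, h]
      · simp only [ext, dif_neg h]
        rw [← Units.val_pow_eq_pow_val, (mem_rootsOfUnity p _).1 (t ⟨i, h⟩).2, Units.val_one]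
    choose y D z hzD hzv hy0 hfix hα hβ htw using fun t : T =>
      exists_node_class hqM hA hsm hqp' N (ext t) (hext t)
    have hK : ∀ t, InK N p (y t) (ext t) := fun t => ⟨z t, D t, hzD t, hzv t, htw t⟩
    have hfun : Function.Injective fun t : T =>
        (⟨y t, ⟨⟨_, hK t⟩, hfix t, hα t, hβ t⟩⟩ : W₀) := fun t t' h => by
      obtain ⟨c, -, hc⟩ := (hK t).exists_eq_mul hS (show InK N p (y t) (ext t') by
        rw [show y t = y t' from congrArg Subtype.val h]; exact hK t')
      have hc1 : c = 1 := by
        have := hc i₀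
        simp only [ext, dif_pos, mul_one] at this
        exact this.symm
      funext i
      have := hc i.1
      simp only [ext, dif_neg i.2, hc1, one_mul] at this
      exact Subtype.ext (Units.ext this.symm)
    haveI : Finite W₀ := by
      haveI := EigenReps.finite_torsion (M * q) p
      exact Finite.of_injective (fun y : W₀ => (⟨(y : JZero (M * q)), Pic0.mem_torsion.2 (by
        rw [natCast_zsmul]; exact hW _ y.2)⟩ : Pic0.torsion QA (modularFunctionFieldBar (M * q)) p))
        fun a b h => Subtype.ext (congrArg Subtype.val h :)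
    refine le_trans (le_of_eq ?_) (Nat.card_le_card_of_injective _ hfun)
    rw [Nat.card_fun, hμ, Nat.card_eq_fintype_card, Fintype.card_subtype_compl,
      Fintype.card_fin, Fintype.card_subtype_eq]
  · intro P hP x hx
    obtain ⟨y, hy⟩ := hx
    let y' : Pic0.torsion QA (modularFunctionFieldBar (M * q)) p :=
      ⟨(y : JZero (M * q)), Pic0.mem_torsion.2 (by rw [natCast_zsmul]; exact hW _ y.2)⟩
    have hxy : x = oldTors hqM p y' := Subtype.ext hy.symm
    rw [hxy, ← oldTors_opAct hqM p κ avoid havoid P y', hP, ← Int.cast_zero, opAct_intCast,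
      zero_zsmul]
    exact Subtype.ext (map_zero (oldMap hqM))

end FLTAgent.Entry
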